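import Mathlib
import Fermat.Prelude.Def_ModularCurve_PeriodHomPair
import Fermat.Agent.S22.PeriodLatticeDefs

/-!
# S21, block (P): basics of the period map of level `N`

For a weight two cusp form `f` on `Γ₀(N)` we show that `primF f := eichH 0 f` (the primitive of `f`
vanishing at `i∞`, from the S22 library) satisfies the Prelude predicate
`ModularCurve.HasEquivariantPrimitive N f`, that it is the only such function, and deduce

* `periodMap_apply`: `periodMap N f γ = primF f (γ • I) - primF f I`;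
* `existsPeriodMapLinear : ExistsPeriodMapLinear N`;
* `periodMap_mem_parabolicHoms`.
-/

set_option autoImplicit false

open Complex Filter UpperHalfPlane CongruenceSubgroup
open scoped Topology MatrixGroups ModularForm

noncomputable section

namespace Fermat.Agent.S21.PeriodBasics

open Fermat.Agent.S22 ModularCurve ModularCurve.Period

/-! ### generalities on `eichP g 1` -/

/-- The normalised primitive of a cuspidal function tends to `0` uniformly as `Im z → ∞`. -/
theorem tendsto_eichP_one {g : ℂ → ℂ} (hg : IsCuspidalFun g) :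
    Tendsto (fun z : ℍ => eichP g 1 (z : ℂ)) atImInfty (𝓝 0) := by
  obtain ⟨h, hh, hc⟩ := hg.exists_cuspidal
  obtain ⟨G, hG, -, hzero⟩ := Prim.exists_periodic_primitive hh hc.diff hc.per hc.zero
  have hvert : Tendsto (fun t : ℝ => G ((t : ℂ) * Complex.I)) atTop (𝓝 0) := by
    refine Tendsto.comp hzero ?_
    rw [tendsto_comap_iff]
    have : (Complex.im ∘ fun t : ℝ => (t : ℂ) * Complex.I) = id := by
      funext t; simp
    rw [this]
    exact tendsto_id
  have hGeq : ∀ z : ℂ, 0 < z.im → G z = eichP g 1 z :=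
    eichP_unique hg 1 (E := G) (fun z hz => by simpa using hG z hz) hvert
  have h1 : Tendsto (fun z : ℍ => G (z : ℂ)) atImInfty (𝓝 0) :=
    Tendsto.comp hzero UpperHalfPlane.tendsto_coe_atImInfty
  refine h1.congr fun z => hGeq z z.im_pos

theorem linW_zero (v : ℂ × ℂ) : linW 0 v = 1 := by simp [linW]

theorem eichH_zero_eq (f : ℍ → ℂ) (v : ℂ × ℂ) (z : ℍ) :
    eichH 0 f v z = eichP (f ∘ ofComplex) 1 (z : ℂ) := by
  rw [eichH, linW_zero]

/-! ### the canonical primitive of a weight two cusp form -/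

variable {N : ℕ}

/-- The primitive of `f` on the upper half plane which vanishes at `i∞`. -/
def primF (f : CuspForm (Gamma0 N) 2) : ℍ → ℂ := eichH 0 ⇑f (0, 1)

theorem primF_eq (f : CuspForm (Gamma0 N) 2) (z : ℍ) :
    primF f z = eichP (⇑f ∘ ofComplex) 1 (z : ℂ) := eichH_zero_eq _ _ _

theorem primF_eq_eichH (f : CuspForm (Gamma0 N) 2) (v : ℂ × ℂ) (z : ℍ) :
    primF f z = eichH 0 ⇑f v z := by
  rw [primF_eq, eichH_zero_eq]

theorem hasDerivAt_primF [NeZero N] (f : CuspForm (Gamma0 N) 2) (τ : ℍ) :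
    HasDerivAt (primF f ∘ ofComplex) (f τ) (τ : ℂ) := by
  have hg : IsCuspidalFun (⇑f ∘ ofComplex) := cuspForm_class f
  have h1 : HasDerivAt (eichP (⇑f ∘ ofComplex) 1) (f τ) (τ : ℂ) := by
    have := eichP_hasDerivAt hg 1 τ.im_pos
    simpa [ofComplex_apply] using this
  refine h1.congr_of_eventuallyEq ?_
  have hU : IsOpen {z : ℂ | 0 < z.im} := isOpen_lt continuous_const Complex.continuous_im
  filter_upwards [hU.mem_nhds τ.im_pos] with u hu
  simp only [Function.comp_apply, primF_eq]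
  rw [ofComplex_apply_of_im_pos hu]

theorem tendsto_primF [NeZero N] (f : CuspForm (Gamma0 N) 2) : Tendsto (primF f) atImInfty (𝓝 0) := by
  have := tendsto_eichP_one (cuspForm_class f)
  exact this.congr fun z => (primF_eq f z).symm

theorem slash_mapGL_eq (f : CuspForm (Gamma0 N) 2) {γ : SL(2, ℤ)} (hγ : γ ∈ Gamma0 N) :
    (⇑f : ℍ → ℂ) ∣[(2 : ℤ)] (Matrix.SpecialLinearGroup.mapGL ℝ γ : GL (Fin 2) ℝ) = ⇑f :=
  SlashInvariantFormClass.slash_action_eq f (Matrix.SpecialLinearGroup.mapGL ℝ γ)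
    (Subgroup.mem_map_of_mem _ hγ)

/-- The period rule: `F(γ z) - F(z)` is the constant `periodConst 0 f γ v`. -/
theorem primF_smul_sub [NeZero N] (f : CuspForm (Gamma0 N) 2) {γ : SL(2, ℤ)} (hγ : γ ∈ Gamma0 N) (z : ℍ) :
    primF f (γ • z) - primF f z = periodConst 0 ⇑f γ (0, 1) := by
  have hper := eichH_period 0 (k := 2) (by norm_num) (⇑f) γ (cuspForm_class f)
    (slash_mapGL_eq f hγ) (0, 1) z
  rw [← primF_eq_eichH f _ z] at hper
  have h2 : primF f (γ • z) = eichH 0 ⇑f (0, 1) (γ • z) := rfl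
  rw [h2, hper]
  ring

theorem isEquivariantPrimitive_primF [NeZero N] (f : CuspForm (Gamma0 N) 2) :
    IsEquivariantPrimitive (Gamma0 N) (primF f) :=
  fun γ => ⟨periodConst 0 ⇑f γ (0, 1), fun z => primF_smul_sub f γ.2 z⟩

/-- Behaviour at every cusp: `F(δ w)` has a limit as `Im w → ∞`. -/
theorem exists_tendsto_primF_smul [NeZero N] (f : CuspForm (Gamma0 N) 2) (δ : SL(2, ℤ)) :
    ∃ L : ℂ, Tendsto (fun w : ℍ => primF f (δ • w)) atImInfty (𝓝 L) := by
  have hfδ : IsCuspidalFun (((⇑f : ℍ → ℂ) ∣[(2 : ℤ)]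
      (Matrix.SpecialLinearGroup.mapGL ℝ δ : GL (Fin 2) ℝ)) ∘ ofComplex) :=
    cuspForm_slash_mapGL_class f δ
  obtain ⟨C, hC⟩ := eichH_smul_SL 0 (k := 2) (by norm_num) (⇑f) δ (cuspForm_class f) hfδ (0, 1)
  refine ⟨C, ?_⟩
  have h0 := tendsto_eichP_one hfδ
  have h1 : Tendsto (fun w : ℍ => C + eichP (((⇑f : ℍ → ℂ) ∣[(2 : ℤ)]
      (Matrix.SpecialLinearGroup.mapGL ℝ δ : GL (Fin 2) ℝ)) ∘ ofComplex) 1 (w : ℂ))
      atImInfty (𝓝 (C + 0)) := tendsto_const_nhds.add h0
  rw [add_zero] at h1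
  refine h1.congr fun w => ?_
  rw [primF, hC w, eichH_zero_eq]

theorem hasEquivariantPrimitive_primF [NeZero N] (f : CuspForm (Gamma0 N) 2) :
    HasEquivariantPrimitive N f (primF f) :=
  ⟨hasDerivAt_primF f, tendsto_primF f, isEquivariantPrimitive_primF f,
    exists_tendsto_primF_smul f⟩

/-! ### uniqueness, and the value of `periodMap` -/

/-- A function satisfying `HasEquivariantPrimitive N f` is `primF f`. (Only the derivative and the
limit at `i∞` are used.) -/
theorem eq_primF_of_hasDerivAt [NeZero N] (f : CuspForm (Gamma0 N) 2) {F : ℍ → ℂ}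
    (hd : ∀ τ : ℍ, HasDerivAt (F ∘ ofComplex) (f τ) ↑τ) (h0 : Tendsto F atImInfty (𝓝 0)) :
    F = primF f := by
  have hD : ∀ z : ℂ, 0 < z.im →
      HasDerivAt (fun u => (F ∘ ofComplex) u - (primF f ∘ ofComplex) u) 0 z := by
    intro z hz
    have h1 := hd ⟨z, hz⟩
    have h2 := hasDerivAt_primF f ⟨z, hz⟩
    have := h1.sub h2
    rwa [sub_self] at this
  have hconst : ∀ z : ℍ, F z - primF f z = F UpperHalfPlane.I - primF f UpperHalfPlane.I := by
    intro z
    have h := const_of_hasDerivAt_zero_uhp hD z.im_pos UpperHalfPlane.I.im_pos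
    simp only [Function.comp_apply, ofComplex_apply] at h
    exact h
  have hlim : Tendsto (fun z : ℍ => F z - primF f z) atImInfty (𝓝 (0 - 0)) :=
    h0.sub (tendsto_primF f)
  have hlim' : Tendsto (fun z : ℍ => F z - primF f z) atImInfty
      (𝓝 (F UpperHalfPlane.I - primF f UpperHalfPlane.I)) := by
    refine tendsto_const_nhds.congr fun z => (hconst z).symm
  have hL : F UpperHalfPlane.I - primF f UpperHalfPlane.I = 0 := by
    have := tendsto_nhds_unique hlim' hlim
    simpa using this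
  funext z
  have := hconst z
  rw [hL] at this
  exact sub_eq_zero.mp this

theorem eq_primF [NeZero N] (f : CuspForm (Gamma0 N) 2) {F : ℍ → ℂ}
    (hF : HasEquivariantPrimitive N f F) : F = primF f :=
  eq_primF_of_hasDerivAt f hF.1 hF.2.1

/-- The value of the Prelude's `periodMap`. -/
theorem periodMap_apply [NeZero N] (f : CuspForm (Gamma0 N) 2) (γ : Gamma0 N) :
    periodMap N f (Additive.ofMul γ) =
      primF f ((γ : SL(2, ℤ)) • UpperHalfPlane.I) - primF f UpperHalfPlane.I := by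
  obtain ⟨F₀, h₀, hpm⟩ := periodMap_def N f (hasEquivariantPrimitive_primF f)
  have hF₀ := eq_primF f h₀
  subst hF₀
  rw [hpm]
  rfl

/-- `F(γ z) - F(z) = periodMap N f γ` for every `z`. -/
theorem primF_smul_sub_eq_periodMap [NeZero N] (f : CuspForm (Gamma0 N) 2) (γ : Gamma0 N) (z : ℍ) :
    primF f ((γ : SL(2, ℤ)) • z) - primF f z = periodMap N f (Additive.ofMul γ) := by
  rw [periodMap_apply, primF_smul_sub f γ.2 z, primF_smul_sub f γ.2 UpperHalfPlane.I]

/-! ### linearity -/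

theorem primF_add [NeZero N] (f g : CuspForm (Gamma0 N) 2) (z : ℍ) :
    primF (f + g) z = primF f z + primF g z :=
  eichH_add_cuspForm 0 f g (0, 1) z

theorem primF_smul [NeZero N] (c : ℂ) (f : CuspForm (Gamma0 N) 2) (z : ℍ) :
    primF (c • f) z = c * primF f z :=
  eichH_smul_cuspForm 0 c f (0, 1) z

/-- The period map as a `ℂ`-linear map. -/
def periodMapLinear (N : ℕ) [NeZero N] :
    CuspForm (Gamma0 N) 2 →ₗ[ℂ] (Additive (Gamma0 N) →+ ℂ) where
  toFun := periodMap N
  map_add' f g := by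
    refine AddMonoidHom.ext fun γ => ?_
    have hγ : γ = Additive.ofMul (Additive.toMul γ) := rfl
    rw [hγ, AddMonoidHom.add_apply, periodMap_apply, periodMap_apply, periodMap_apply,
      primF_add, primF_add]
    ring
  map_smul' c f := by
    refine AddMonoidHom.ext fun γ => ?_
    have hγ : γ = Additive.ofMul (Additive.toMul γ) := rfl
    rw [hγ, RingHom.id_apply, AddMonoidHom.smul_apply, periodMap_apply, periodMap_apply,
      primF_smul, primF_smul, smul_eq_mul]
    ring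

@[simp] theorem periodMapLinear_apply (N : ℕ) [NeZero N] (f : CuspForm (Gamma0 N) 2) :
    periodMapLinear N f = periodMap N f := rfl

theorem existsPeriodMapLinear (N : ℕ) [NeZero N] : ExistsPeriodMapLinear N :=
  ⟨periodMapLinear N, fun _ => rfl⟩

/-! ### parabolic elements -/

/-- An element of `SL(2, ℤ)` with `trace² = 4` is conjugate in `SL(2, ℤ)` to an upper triangular
matrix. -/
theorem exists_conj_upper (γ : SL(2, ℤ))
    (h : ((γ : Matrix (Fin 2) (Fin 2) ℤ)).trace ^ 2 = 4) :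
    ∃ δ σ : SL(2, ℤ), γ * δ = δ * σ ∧ σ 1 0 = 0 := by
  by_cases hc : γ 1 0 = 0
  · exact ⟨1, γ, by simp, hc⟩
  have hdet : γ 0 0 * γ 1 1 - γ 0 1 * γ 1 0 = 1 := by
    have := Matrix.SpecialLinearGroup.det_coe γ
    rwa [Matrix.det_fin_two] at this
  rw [Matrix.trace_fin_two] at h
  obtain ⟨ε, hε, ht⟩ : ∃ ε : ℤ, ε ^ 2 = 1 ∧ γ 0 0 + γ 1 1 = 2 * ε := by
    have h' : (γ 0 0 + γ 1 1 - 2) * (γ 0 0 + γ 1 1 + 2) = 0 := by linear_combination h
    rcases mul_eq_zero.mp h' with h1 | h1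
    · exact ⟨1, by norm_num, by linarith⟩
    · exact ⟨-1, by norm_num, by linarith⟩
  have hg : 0 < Int.gcd (γ 0 0 - ε) (γ 1 0) :=
    Int.gcd_pos_of_ne_zero_right _ hc
  obtain ⟨u, v, huv, hu, hv⟩ := Int.exists_gcd_one hg
  set g : ℤ := (Int.gcd (γ 0 0 - ε) (γ 1 0) : ℤ) with hgdef
  have hg0 : g ≠ 0 := by
    rw [hgdef]; exact_mod_cast hg.ne'
  have hbez : u * Int.gcdA u v + v * Int.gcdB u v = 1 := by
    have := Int.gcd_eq_gcd_ab u v
    rw [huv] at this
    exact_mod_cast this.symm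
  set A := Int.gcdA u v
  set B := Int.gcdB u v
  let δ : SL(2, ℤ) := ⟨!![u, -B; v, A], by rw [Matrix.det_fin_two_of]; linarith⟩
  refine ⟨δ, δ⁻¹ * γ * δ, by group, ?_⟩
  have hE : γ 1 0 * u ^ 2 + (γ 1 1 - γ 0 0) * u * v - γ 0 1 * v ^ 2 = 0 := by
    have h2 : g ^ 2 * (γ 1 0 * u ^ 2 + (γ 1 1 - γ 0 0) * u * v - γ 0 1 * v ^ 2) = 0 := by
      calc g ^ 2 * (γ 1 0 * u ^ 2 + (γ 1 1 - γ 0 0) * u * v - γ 0 1 * v ^ 2)
          = γ 1 0 * (u * g) ^ 2 + (γ 1 1 - γ 0 0) * (u * g) * (v * g) - γ 0 1 * (v * g) ^ 2 := by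
            ring
        _ = γ 1 0 * (γ 0 0 - ε) ^ 2 + (γ 1 1 - γ 0 0) * (γ 0 0 - ε) * (γ 1 0)
              - γ 0 1 * (γ 1 0) ^ 2 := by rw [← hu, ← hv]
        _ = 0 := by
            linear_combination (γ 1 0) * hdet - (γ 1 0) * ε * ht - (γ 1 0) * hε
    rcases mul_eq_zero.mp h2 with h3 | h3
    · exact absurd (pow_eq_zero_iff two_ne_zero |>.mp h3) hg0
    · exact h3
  have hval : (δ⁻¹ * γ * δ) 1 0
      = γ 1 0 * u ^ 2 + (γ 1 1 - γ 0 0) * u * v - γ 0 1 * v ^ 2 := by
    simp only [Matrix.SpecialLinearGroup.coe_mul, Matrix.SpecialLinearGroup.coe_inv,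
      Matrix.adjugate_fin_two, Matrix.mul_apply, Fin.sum_univ_two, δ]
    simp
    ring
  rw [hval, hE]

/-- An upper triangular element of `SL(2, ℤ)` preserves imaginary parts. -/
theorem im_smul_of_upper (σ : SL(2, ℤ)) (hσ : σ 1 0 = 0) (w : ℍ) : (σ • w).im = w.im := by
  have hdet : σ 0 0 * σ 1 1 - σ 0 1 * σ 1 0 = 1 := by
    have := Matrix.SpecialLinearGroup.det_coe σ
    rwa [Matrix.det_fin_two] at this
  rw [hσ, mul_zero, sub_zero] at hdet
  have h11 : σ 1 1 = 1 ∨ σ 1 1 = -1 := by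
    rcases Int.eq_one_or_neg_one_of_mul_eq_one' hdet with h | h
    · exact Or.inl h.2
    · exact Or.inr h.2
  rw [ModularGroup.im_smul_eq_div_normSq, ModularGroup.denom_apply, hσ]
  rcases h11 with h | h <;> simp [h]

theorem tendsto_smul_atImInfty_of_upper (σ : SL(2, ℤ)) (hσ : σ 1 0 = 0) :
    Tendsto (fun w : ℍ => σ • w) atImInfty atImInfty := by
  rw [atImInfty, tendsto_comap_iff]
  have : (UpperHalfPlane.im ∘ fun w : ℍ => σ • w) = UpperHalfPlane.im := by
    funext w
    exact im_smul_of_upper σ hσ w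
  rw [this]
  exact tendsto_comap

/-- Periods of cusp forms vanish on parabolic elements (and on `±1`). -/
theorem periodMap_eq_zero_of_trace [NeZero N] (f : CuspForm (Gamma0 N) 2) (γ : Gamma0 N)
    (h : (((γ : SL(2, ℤ)) : Matrix (Fin 2) (Fin 2) ℤ)).trace ^ 2 = 4) :
    periodMap N f (Additive.ofMul γ) = 0 := by
  obtain ⟨δ, σ, hδσ, hσ⟩ := exists_conj_upper (γ : SL(2, ℤ)) h
  obtain ⟨L, hL⟩ := exists_tendsto_primF_smul f δ
  have h1 : Tendsto (fun w : ℍ => primF f (δ • (σ • w))) atImInfty (𝓝 L) :=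
    hL.comp (tendsto_smul_atImInfty_of_upper σ hσ)
  have h2 : Tendsto (fun w : ℍ => primF f (δ • (σ • w)) - primF f (δ • w)) atImInfty
      (𝓝 (L - L)) := h1.sub hL
  have h3 : ∀ w : ℍ, primF f (δ • (σ • w)) - primF f (δ • w)
      = periodMap N f (Additive.ofMul γ) := by
    intro w
    rw [← primF_smul_sub_eq_periodMap f γ (δ • w), ← mul_smul, ← mul_smul, hδσ]
  have h4 : Tendsto (fun _ : ℍ => periodMap N f (Additive.ofMul γ)) atImInfty (𝓝 (L - L)) :=
    h2.congr h3
  have := tendsto_nhds_unique tendsto_const_nhds h4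
  rw [this, sub_self]

theorem periodMap_mem_parabolicHoms [NeZero N] (f : CuspForm (Gamma0 N) 2) :
    periodMap N f ∈ parabolicHoms ℂ (Gamma0 N) ℂ := by
  rw [mem_parabolicHoms_iff]
  intro γ hγ
  exact periodMap_eq_zero_of_trace f γ hγ

/-! ### consequences for `periodHomPair` -/

theorem periodHomPair_eq (N : ℕ) [NeZero N] :
    periodHomPair N = LinearMap.coprod
      ((LinearMap.id + charInvolution N ℂ ℂ) ∘ₗ periodMapLinear N)
      ((LinearMap.id - charInvolution N ℂ ℂ) ∘ₗ periodMapLinear N) := by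
  obtain ⟨pml, hpml, h⟩ := periodHomPair_def N (existsPeriodMapLinear N)
  have : pml = periodMapLinear N := LinearMap.ext fun f => hpml f
  rw [h, this]

theorem periodHomPair_apply (N : ℕ) [NeZero N] (f g : CuspForm (Gamma0 N) 2) :
    periodHomPair N (f, g) =
      (periodMap N f + charInvolution N ℂ ℂ (periodMap N f))
        + (periodMap N g - charInvolution N ℂ ℂ (periodMap N g)) := by
  rw [periodHomPair_eq]
  simp [LinearMap.coprod_apply]

theorem range_periodHomPair_le (N : ℕ) [NeZero N] :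
    LinearMap.range (periodHomPair N) ≤ parabolicHoms ℂ (Gamma0 N) ℂ := by
  rintro _ ⟨⟨f, g⟩, rfl⟩
  rw [periodHomPair_apply]
  have hf := periodMap_mem_parabolicHoms f
  have hg := periodMap_mem_parabolicHoms g
  exact Submodule.add_mem _
    (Submodule.add_mem _ hf (charInvolution_mem_parabolicHoms N ℂ ℂ hf))
    (Submodule.sub_mem _ hg (charInvolution_mem_parabolicHoms N ℂ ℂ hg))

end Fermat.Agent.S21.PeriodBasics
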