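/-
S21, block H (owner: helper84).  Upper bound for the dimension of the space of parabolic
homomorphisms `Γ → ℂ`, for a finite index subgroup `Γ` of a group `G` generated by two elements
`s`, `t`:

  `dim P + #orbits(s) + #orbits(s t) + #orbits(t) ≤ [G : Γ] + 2`

where `P` is any space of homomorphisms `Γ → ℂ` killed on the `G`-conjugates (lying in `Γ`) of
suitable powers of `s`, `s t`, `t`, and orbits are taken on `G ⧸ Γ`.  Applied to
`G = SL(2, ℤ)`, `Γ = Γ₀(N)`, `s = S`, `t = T` this is `dim Hom_par(Γ₀(N), ℂ) ≤ 2 g`.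

Method: Shapiro-type cocycle `c : G → (G ⧸ Γ → ℂ)` attached to `φ`, determined by `(c s, c (s t))`,
with `c g ∈ range (g^* - 1)`; pure finite-dimensional linear algebra, no presentation of `G` needed.
-/
import Mathlib
import Fermat.Prelude.Def_ModularCurve_PeriodMap

set_option autoImplicit false

open MulAction Module

namespace Fermat.Agent.S21.ParabolicBound

/-! ### Linear algebra on functions on a finite `G`-set -/

section FunctionSpace

variable {G : Type*} [Group G] {X : Type*} [MulAction G X]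

/-- Pull-back of functions along the action of `g`. -/
noncomputable def pull (g : G) : (X → ℂ) →ₗ[ℂ] (X → ℂ) :=
  LinearMap.funLeft ℂ ℂ (fun x => g • x)

@[simp] theorem pull_apply (g : G) (v : X → ℂ) (x : X) : pull g v x = v (g • x) := rfl

/-- The `⟨g⟩`-coboundaries: functions of the form `v ∘ g - v`. -/
noncomputable def cob (g : G) : Submodule ℂ (X → ℂ) :=
  LinearMap.range (pull g - LinearMap.id : (X → ℂ) →ₗ[ℂ] (X → ℂ))

theorem pull_sub_mem_cob (g : G) (v : X → ℂ) : (fun x => v (g • x) - v x) ∈ cob (X := X) g :=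
  ⟨v, by funext x; simp⟩

/-- Number of orbits of the cyclic group generated by `g`. -/
noncomputable abbrev nOrb (X : Type*) [MulAction G X] (g : G) : ℕ :=
  Nat.card (orbitRel.Quotient (Subgroup.zpowers g) X)

variable [Finite X]

theorem finrank_fun_eq : finrank ℂ (X → ℂ) = Nat.card X := by
  classical
  have := Fintype.ofFinite X
  rw [Module.finrank_fintype_fun_eq_card, Nat.card_eq_fintype_card]

/-- `dim range (g^* - 1) + #orbits(g) ≤ |X|`. -/
theorem finrank_cob_add_nOrb_le (g : G) :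
    finrank ℂ (cob (X := X) g) + nOrb X g ≤ Nat.card X := by
  classical
  have h1 := LinearMap.finrank_range_add_finrank_ker
    (pull g - LinearMap.id : (X → ℂ) →ₗ[ℂ] (X → ℂ))
  rw [finrank_fun_eq] at h1
  -- invariant functions contain the functions on the orbit space
  let Ω := orbitRel.Quotient (Subgroup.zpowers g) X
  have : Finite Ω := Quotient.finite _
  let ι : (Ω → ℂ) →ₗ[ℂ] (X → ℂ) := LinearMap.funLeft ℂ ℂ (fun x => (Quotient.mk'' x : Ω))
  have hι : Function.Injective ι := by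
    intro a b hab
    funext o
    induction o using Quotient.inductionOn' with
    | h x => exact congrFun hab x
  have hrange : LinearMap.range ι ≤ LinearMap.ker (pull g - LinearMap.id : (X → ℂ) →ₗ[ℂ] (X → ℂ)) := by
    rintro _ ⟨a, rfl⟩
    rw [LinearMap.mem_ker]
    funext x
    simp only [LinearMap.sub_apply, LinearMap.id_coe, id_eq, Pi.sub_apply, pull_apply, Pi.zero_apply]
    have : (Quotient.mk'' (g • x) : Ω) = Quotient.mk'' x := by
      apply Quotient.sound'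
      exact ⟨⟨g, Subgroup.mem_zpowers g⟩, rfl⟩
    show a (Quotient.mk'' (g • x)) - a (Quotient.mk'' x) = 0
    rw [this, sub_self]
  have h2 : Nat.card Ω ≤ finrank ℂ (LinearMap.ker (pull g - LinearMap.id : (X → ℂ) →ₗ[ℂ] (X → ℂ))) := by
    have h3 : finrank ℂ (Ω → ℂ) = Nat.card Ω := finrank_fun_eq
    rw [← h3]
    calc finrank ℂ (Ω → ℂ) = finrank ℂ (LinearMap.range ι) :=
          (LinearMap.finrank_range_of_inj hι).symm
      _ ≤ _ := Submodule.finrank_mono hrange
  have : finrank ℂ (cob (X := X) g) = finrank ℂ (LinearMap.range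
      (pull g - LinearMap.id : (X → ℂ) →ₗ[ℂ] (X → ℂ))) := rfl
  change finrank ℂ (cob (X := X) g) + Nat.card Ω ≤ Nat.card X
  omega

end FunctionSpace

/-! ### The augmentation-zero functions are generated by coboundaries -/

section Augmentation

variable {G : Type*} [Group G] {X : Type*} [MulAction G X]

/-- For every `g` in the subgroup generated by `k`, all `v ∘ g - v` lie in `⨆ h ∈ k, cob h`. -/
theorem pull_sub_mem_of_mem_closure {k : Set G} {W : Submodule ℂ (X → ℂ)}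
    (hW : ∀ h ∈ k, cob (X := X) h ≤ W) {g : G} (hg : g ∈ Subgroup.closure k) (v : X → ℂ) :
    (fun x => v (g • x) - v x) ∈ W := by
  induction hg using Subgroup.closure_induction generalizing v with
  | mem h hh => exact hW h hh (pull_sub_mem_cob h v)
  | one =>
    have : (fun x => v ((1 : G) • x) - v x) = 0 := by funext x; simp
    rw [this]; exact W.zero_mem
  | mul a b _ _ iha ihb =>
    have h1 := ihb (fun x => v (a • x))
    have h2 := iha v
    have : (fun x => v ((a * b) • x) - v x)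
        = (fun x => v (a • b • x) - v (a • x)) + (fun x => v (a • x) - v x) := by
      funext x; simp [mul_smul]
    rw [this]
    exact W.add_mem h1 h2
  | inv a _ iha =>
    have h1 := iha (fun x => v (a⁻¹ • x))
    have : (fun x => v (a⁻¹ • x) - v x)
        = -(fun x => (fun y => v (a⁻¹ • y)) (a • x) - (fun y => v (a⁻¹ • y)) x) := by
      funext x; simp
    rw [this]
    exact W.neg_mem h1

variable [Finite X]

open Classical in
/-- The augmentation functional. -/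
noncomputable def aug : (X → ℂ) →ₗ[ℂ] ℂ :=
  letI := Fintype.ofFinite X
  { toFun := fun v => ∑ x, v x
    map_add' := fun v w => by simp [Finset.sum_add_distrib]
    map_smul' := fun c v => by simp [Finset.mul_sum] }

theorem aug_apply [Fintype X] (v : X → ℂ) : aug v = ∑ x, v x := by
  unfold aug
  simp only [LinearMap.coe_mk, AddHom.coe_mk]
  convert rfl

theorem card_le_finrank_ker_aug_add_one :
    Nat.card X ≤ finrank ℂ (LinearMap.ker (aug (X := X))) + 1 := by
  have h1 := LinearMap.finrank_range_add_finrank_ker (aug (X := X))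
  rw [finrank_fun_eq] at h1
  have h2 : finrank ℂ (LinearMap.range (aug (X := X))) ≤ 1 := by
    have := Submodule.finrank_le (LinearMap.range (aug (X := X)))
    simpa using this
  omega

/-- If `s`, `t` generate `G` and `G` acts transitively on `X`, the augmentation-zero functions are
sums of `s`- and `t`-coboundaries. -/
theorem ker_aug_le_cob_sup_cob [IsPretransitive G X] {s t : G}
    (hgen : Subgroup.closure {s, t} = ⊤) :
    LinearMap.ker (aug (X := X)) ≤ cob (X := X) s ⊔ cob (X := X) t := by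
  classical
  have := Fintype.ofFinite X
  set W := cob (X := X) s ⊔ cob (X := X) t with hWdef
  have hW : ∀ h ∈ ({s, t} : Set G), cob (X := X) h ≤ W := by
    intro h hh
    rcases hh with rfl | rfl
    · exact le_sup_left
    · exact le_sup_right
  have hall : ∀ (g : G) (v : X → ℂ), (fun x => v (g • x) - v x) ∈ W := fun g v =>
    pull_sub_mem_of_mem_closure hW (by rw [hgen]; trivial) v
  -- differences of delta functions
  have hdelta : ∀ x y : X, (Pi.single x (1 : ℂ) - Pi.single y (1 : ℂ) : X → ℂ) ∈ W := by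
    intro x y
    obtain ⟨g, hg⟩ := exists_smul_eq G y x
    have := hall g (Pi.single x (1 : ℂ))
    have h2 : (fun z => (Pi.single x (1 : ℂ) : X → ℂ) (g • z) - (Pi.single x (1 : ℂ) : X → ℂ) z)
        = (Pi.single y (1 : ℂ) - Pi.single x (1 : ℂ) : X → ℂ) := by
      funext z
      simp only [Pi.sub_apply, Pi.single_apply]
      have : g • z = x ↔ z = y := by
        rw [← hg]; exact ⟨fun h => smul_left_cancel g h, fun h => by rw [h]⟩
      simp only [this]
    rw [h2] at this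
    have := W.neg_mem this
    simpa using this
  intro v hv
  rw [LinearMap.mem_ker, aug_apply] at hv
  cases isEmpty_or_nonempty X with
  | inl hX =>
    have : v = 0 := by funext x; exact (hX.false x).elim
    rw [this]; exact W.zero_mem
  | inr hX =>
    obtain ⟨x₀⟩ := hX
    have hv' : v = ∑ x, v x • (Pi.single x (1 : ℂ) - Pi.single x₀ (1 : ℂ) : X → ℂ) := by
      funext y
      simp only [Finset.sum_apply, Pi.smul_apply, Pi.sub_apply, smul_eq_mul, mul_sub,
        Finset.sum_sub_distrib, Pi.single_apply, mul_ite, mul_one, mul_zero]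
      by_cases hy : y = x₀ <;> simp [hy, hv]
    rw [hv']
    exact W.sum_mem fun x _ => W.smul_mem _ (hdelta x x₀)

end Augmentation

/-! ### Averaging: vanishing norm implies coboundary -/

section Averaging

variable {G : Type*} [Group G] {X : Type*} [MulAction G X]

theorem mem_cob_of_sum_eq_zero (g : G) (c : X → ℂ) {M : ℕ} (hM : 0 < M)
    (h : ∀ x, ∑ i ∈ Finset.range M, c (g ^ i • x) = 0) : c ∈ cob (X := X) g := by
  -- partial sums
  set A : ℕ → X → ℂ := fun i x => ∑ j ∈ Finset.range i, c (g ^ j • x) with hA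
  have hAshift : ∀ i x, A i (g • x) = A (i + 1) x - c x := by
    intro i x
    simp only [hA]
    rw [Finset.sum_range_succ']
    simp [pow_succ, mul_smul]
  set w : X → ℂ := fun x => -((M : ℂ)⁻¹ * ∑ i ∈ Finset.range M, A i x) with hw
  refine ⟨w, ?_⟩
  funext x
  simp only [LinearMap.sub_apply, LinearMap.id_coe, id_eq, Pi.sub_apply, pull_apply, hw]
  have hM' : (M : ℂ) ≠ 0 := by exact_mod_cast hM.ne'
  have h1 : ∑ i ∈ Finset.range M, A i (g • x)
      = ∑ i ∈ Finset.range M, A (i + 1) x - M * c x := by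
    simp only [hAshift, Finset.sum_sub_distrib, Finset.sum_const, Finset.card_range, nsmul_eq_mul]
  have h2 : ∑ i ∈ Finset.range M, A (i + 1) x = ∑ i ∈ Finset.range M, A i x + A M x - A 0 x := by
    have h3 := Finset.sum_range_succ' (fun i => A i x) M
    linear_combination Finset.sum_range_succ (fun i => A i x) M - h3
  have h4 : A M x = 0 := h x
  have h5 : A 0 x = 0 := by simp [hA]
  rw [h1, h2, h4, h5]
  field_simp
  ring

end Averaging

/-! ### A dimension count for triples of subspaces -/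

section Count

variable {V : Type*} [AddCommGroup V] [Module ℂ V] [FiniteDimensional ℂ V]

/-- The space of pairs `(a, b)` with `a ∈ B₁`, `b ∈ B₂`, `b - a ∈ B₃`. -/
def pairSpace (B₁ B₂ B₃ : Submodule ℂ V) : Submodule ℂ (V × V) where
  carrier := {p | p.1 ∈ B₁ ∧ p.2 ∈ B₂ ∧ p.2 - p.1 ∈ B₃}
  zero_mem' := ⟨B₁.zero_mem, B₂.zero_mem, by simp⟩
  add_mem' := by
    rintro p q ⟨hp1, hp2, hp3⟩ ⟨hq1, hq2, hq3⟩
    refine ⟨B₁.add_mem hp1 hq1, B₂.add_mem hp2 hq2, ?_⟩
    have : (p + q).2 - (p + q).1 = (p.2 - p.1) + (q.2 - q.1) := by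
      simp only [Prod.fst_add, Prod.snd_add]; abel
    rw [this]; exact B₃.add_mem hp3 hq3
  smul_mem' := by
    rintro c p ⟨hp1, hp2, hp3⟩
    refine ⟨B₁.smul_mem c hp1, B₂.smul_mem c hp2, ?_⟩
    have : (c • p).2 - (c • p).1 = c • (p.2 - p.1) := by
      simp only [Prod.smul_fst, Prod.smul_snd, smul_sub]
    rw [this]; exact B₃.smul_mem c hp3

omit [FiniteDimensional ℂ V] in
theorem mem_pairSpace {B₁ B₂ B₃ : Submodule ℂ V} {p : V × V} :
    p ∈ pairSpace B₁ B₂ B₃ ↔ p.1 ∈ B₁ ∧ p.2 ∈ B₂ ∧ p.2 - p.1 ∈ B₃ := Iff.rfl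

theorem finrank_pairSpace_add_le (B₁ B₂ B₃ : Submodule ℂ V) :
    finrank ℂ (pairSpace B₁ B₂ B₃) + finrank ℂ (B₁ ⊔ B₃ : Submodule ℂ V)
      ≤ finrank ℂ B₁ + finrank ℂ B₂ + finrank ℂ B₃ := by
  set Z := pairSpace B₁ B₂ B₃
  -- the projection to the second factor
  let π : Z →ₗ[ℂ] V := (LinearMap.snd ℂ V V).comp Z.subtype
  have h1 := LinearMap.finrank_range_add_finrank_ker π
  have hrange : LinearMap.range π ≤ B₂ := by
    rintro _ ⟨z, rfl⟩
    exact z.2.2.1
  have h2 : finrank ℂ (LinearMap.range π) ≤ finrank ℂ B₂ := Submodule.finrank_mono hrange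
  -- the kernel injects into `B₁ ⊓ B₃`
  let κ : LinearMap.ker π →ₗ[ℂ] (B₁ ⊓ B₃ : Submodule ℂ V) :=
    LinearMap.codRestrict _ ((LinearMap.fst ℂ V V).comp (Z.subtype.comp (LinearMap.ker π).subtype))
      (by
        rintro ⟨⟨p, hp⟩, hk⟩
        have hk' : p.2 = 0 := by
          have := LinearMap.mem_ker.mp hk
          simpa [π] using this
        refine ⟨hp.1, ?_⟩
        have h3 := hp.2.2
        rw [hk', zero_sub] at h3
        have := B₃.neg_mem h3
        simpa using this)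
  have hκ : Function.Injective κ := by
    rintro ⟨⟨p, hp⟩, hk⟩ ⟨⟨q, hq⟩, hk2⟩ h
    have hp2 : p.2 = 0 := by
      have := LinearMap.mem_ker.mp hk
      simpa [π] using this
    have hq2 : q.2 = 0 := by
      have := LinearMap.mem_ker.mp hk2
      simpa [π] using this
    have h1 : p.1 = q.1 := by
      have := congrArg (fun x : (B₁ ⊓ B₃ : Submodule ℂ V) => (x : V)) h
      simpa [κ] using this
    have : p = q := Prod.ext h1 (by rw [hp2, hq2])
    subst this
    rfl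
  have h3 : finrank ℂ (LinearMap.ker π) ≤ finrank ℂ (B₁ ⊓ B₃ : Submodule ℂ V) :=
    LinearMap.finrank_le_finrank_of_injective hκ
  have h4 := Submodule.finrank_sup_add_finrank_inf_eq B₁ B₃
  omega

end Count

/-! ### The cocycle attached to a homomorphism `Γ → ℂ` -/

section Cocycle

variable {G : Type*} [Group G] (Γ : Subgroup G)

open Classical in
/-- Extension by zero of `φ : Γ → ℂ` to `G`. -/
noncomputable def extHom (φ : Additive Γ →+ ℂ) (g : G) : ℂ :=
  if h : g ∈ Γ then φ (Additive.ofMul ⟨g, h⟩) else 0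

theorem extHom_of_mem (φ : Additive Γ →+ ℂ) {g : G} (h : g ∈ Γ) :
    extHom Γ φ g = φ (Additive.ofMul ⟨g, h⟩) := by
  unfold extHom; rw [dif_pos h]

theorem extHom_mul (φ : Additive Γ →+ ℂ) {g h : G} (hg : g ∈ Γ) (hh : h ∈ Γ) :
    extHom Γ φ (g * h) = extHom Γ φ g + extHom Γ φ h := by
  rw [extHom_of_mem Γ φ hg, extHom_of_mem Γ φ hh, extHom_of_mem Γ φ (Γ.mul_mem hg hh), ← map_add]
  rfl

theorem extHom_one (φ : Additive Γ →+ ℂ) : extHom Γ φ 1 = 0 := by
  rw [extHom_of_mem Γ φ Γ.one_mem]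
  exact map_zero φ

theorem extHom_add (φ ψ : Additive Γ →+ ℂ) (g : G) :
    extHom Γ (φ + ψ) g = extHom Γ φ g + extHom Γ ψ g := by
  unfold extHom
  split_ifs <;> simp

theorem extHom_smul (c : ℂ) (φ : Additive Γ →+ ℂ) (g : G) :
    extHom Γ (c • φ) g = c * extHom Γ φ g := by
  unfold extHom
  split_ifs <;> simp

/-- A fixed section of `G → G ⧸ Γ`. -/
noncomputable def sec (g : G) : G := (QuotientGroup.mk g : G ⧸ Γ).out

theorem sec_inv_mul_mem (g : G) : (sec Γ g)⁻¹ * g ∈ Γ := by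
  rw [← QuotientGroup.eq]
  exact QuotientGroup.out_eq' _

theorem sec_mul_of_mem (g : G) {γ : G} (hγ : γ ∈ Γ) : sec Γ (g * γ) = sec Γ g := by
  unfold sec
  congr 1
  rw [QuotientGroup.eq]
  simpa [mul_assoc] using Γ.inv_mem hγ

/-- The `φ`-equivariant function `F (g γ) = F g + φ γ`. -/
noncomputable def equiF (φ : Additive Γ →+ ℂ) (g : G) : ℂ := extHom Γ φ ((sec Γ g)⁻¹ * g)

theorem equiF_mul_of_mem (φ : Additive Γ →+ ℂ) (g : G) {γ : G} (hγ : γ ∈ Γ) :
    equiF Γ φ (g * γ) = equiF Γ φ g + extHom Γ φ γ := by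
  unfold equiF
  rw [sec_mul_of_mem Γ g hγ, ← mul_assoc, extHom_mul Γ φ (sec_inv_mul_mem Γ g) hγ]

/-- The Shapiro cocycle `c_g : G ⧸ Γ → ℂ` attached to `φ`. -/
noncomputable def coc (φ : Additive Γ →+ ℂ) (g : G) : (G ⧸ Γ) → ℂ :=
  fun x => equiF Γ φ (g * x.out) - equiF Γ φ x.out

theorem coc_mk (φ : Additive Γ →+ ℂ) (g r : G) :
    coc Γ φ g (r : G ⧸ Γ) = equiF Γ φ (g * r) - equiF Γ φ r := by
  obtain ⟨γ, hγ⟩ := QuotientGroup.mk_out_eq_mul Γ r
  unfold coc
  rw [hγ, ← mul_assoc, equiF_mul_of_mem Γ φ (g * r) γ.2, equiF_mul_of_mem Γ φ r γ.2]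
  ring

theorem coc_mul (φ : Additive Γ →+ ℂ) (g h : G) (x : G ⧸ Γ) :
    coc Γ φ (g * h) x = coc Γ φ g (h • x) + coc Γ φ h x := by
  induction x using QuotientGroup.induction_on with
  | H r =>
    have : h • (r : G ⧸ Γ) = ((h * r : G) : G ⧸ Γ) := rfl
    rw [this, coc_mk, coc_mk, coc_mk, mul_assoc]
    ring

theorem coc_one (φ : Additive Γ →+ ℂ) (x : G ⧸ Γ) : coc Γ φ 1 x = 0 := by
  have := coc_mul Γ φ 1 1 x
  simp only [mul_one, one_smul] at this
  linear_combination -this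

theorem coc_pow (φ : Additive Γ →+ ℂ) (g : G) (M : ℕ) (x : G ⧸ Γ) :
    coc Γ φ (g ^ M) x = ∑ i ∈ Finset.range M, coc Γ φ g (g ^ i • x) := by
  induction M with
  | zero => simp [coc_one]
  | succ n ih =>
    rw [pow_succ', coc_mul, ih, Finset.sum_range_succ]
    ring

theorem coc_of_conj_mem (φ : Additive Γ →+ ℂ) (g r : G) (h : r⁻¹ * g * r ∈ Γ) :
    coc Γ φ g (r : G ⧸ Γ) = extHom Γ φ (r⁻¹ * g * r) := by
  rw [coc_mk]
  have : g * r = r * (r⁻¹ * g * r) := by group
  rw [this, equiF_mul_of_mem Γ φ r h]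
  ring

theorem coc_of_mem (φ : Additive Γ →+ ℂ) {γ : G} (hγ : γ ∈ Γ) :
    coc Γ φ γ ((1 : G) : G ⧸ Γ) = extHom Γ φ γ := by
  have := coc_of_conj_mem Γ φ γ 1 (by simpa using hγ)
  simpa using this

theorem coc_add (φ ψ : Additive Γ →+ ℂ) (g : G) :
    coc Γ (φ + ψ) g = coc Γ φ g + coc Γ ψ g := by
  funext x
  simp only [coc, equiF, extHom_add, Pi.add_apply]
  ring

theorem coc_smul (c : ℂ) (φ : Additive Γ →+ ℂ) (g : G) :
    coc Γ (c • φ) g = c • coc Γ φ g := by
  funext x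
  simp only [coc, equiF, extHom_smul, Pi.smul_apply, smul_eq_mul]
  ring

end Cocycle

/-! ### The main inequality -/

section Main

variable {G : Type*} [Group G] (Γ : Subgroup G)

/-- `P` is killed on the conjugates of a fixed power of `g`. -/
def Kills (P : Submodule ℂ (Additive Γ →+ ℂ)) (g : G) : Prop :=
  ∃ M : ℕ, 0 < M ∧ ∀ r : G, r⁻¹ * g ^ M * r ∈ Γ ∧ ∀ φ ∈ P, extHom Γ φ (r⁻¹ * g ^ M * r) = 0

theorem kills_of_pow_eq_one (P : Submodule ℂ (Additive Γ →+ ℂ)) {g : G} {M : ℕ} (hM : 0 < M)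
    (h : g ^ M = 1) : Kills Γ P g := by
  refine ⟨M, hM, fun r => ?_⟩
  have : r⁻¹ * g ^ M * r = 1 := by rw [h]; group
  rw [this]
  exact ⟨Γ.one_mem, fun φ _ => extHom_one Γ φ⟩

/-- The total cocycle `c^φ_g + (v ∘ g - v)`. -/
noncomputable def totCoc (φ : Additive Γ →+ ℂ) (v : (G ⧸ Γ) → ℂ) (g : G) : (G ⧸ Γ) → ℂ :=
  fun x => coc Γ φ g x + (v (g • x) - v x)

theorem totCoc_mul (φ : Additive Γ →+ ℂ) (v : (G ⧸ Γ) → ℂ) (g h : G) (x : G ⧸ Γ) :
    totCoc Γ φ v (g * h) x = totCoc Γ φ v g (h • x) + totCoc Γ φ v h x := by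
  simp only [totCoc, coc_mul, mul_smul]
  ring

theorem totCoc_mem_cob {P : Submodule ℂ (Additive Γ →+ ℂ)} {g : G} (hg : Kills Γ P g)
    {φ : Additive Γ →+ ℂ} (hφ : φ ∈ P) (v : (G ⧸ Γ) → ℂ) :
    totCoc Γ φ v g ∈ cob (X := G ⧸ Γ) g := by
  obtain ⟨M, hM, hr⟩ := hg
  have h1 : coc Γ φ g ∈ cob (X := G ⧸ Γ) g := by
    refine mem_cob_of_sum_eq_zero g _ hM fun x => ?_
    rw [← coc_pow]
    induction x using QuotientGroup.induction_on with
    | H r =>
      rw [coc_of_conj_mem Γ φ (g ^ M) r (hr r).1]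
      exact (hr r).2 φ hφ
  have h2 := pull_sub_mem_cob (X := G ⧸ Γ) g v
  have : totCoc Γ φ v g = coc Γ φ g + (fun x => v (g • x) - v x) := rfl
  rw [this]
  exact Submodule.add_mem _ h1 h2

theorem totCoc_eq_zero_of_gen (φ : Additive Γ →+ ℂ) (v : (G ⧸ Γ) → ℂ) {k : Set G}
    (hk : ∀ g ∈ k, totCoc Γ φ v g = 0) {g : G} (hg : g ∈ Subgroup.closure k) :
    totCoc Γ φ v g = 0 := by
  induction hg using Subgroup.closure_induction with
  | mem h hh => exact hk h hh
  | one =>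
    funext x
    have := totCoc_mul Γ φ v 1 1 x
    simp only [mul_one, one_smul] at this
    simpa using (by linear_combination -this : totCoc Γ φ v 1 x = 0)
  | mul a b _ _ iha ihb =>
    funext x
    rw [totCoc_mul, iha, ihb]
    simp
  | inv a _ iha =>
    funext x
    have h1 := totCoc_mul Γ φ v a a⁻¹ x
    have h0 : totCoc Γ φ v 1 x = 0 := by
      have := totCoc_mul Γ φ v 1 1 x
      simp only [mul_one, one_smul] at this
      linear_combination -this
    rw [mul_inv_cancel, h0, iha] at h1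
    simpa using h1.symm

variable [Finite (G ⧸ Γ)]

/-- The linear map `(φ, v) ↦ (C_s, C_u)`. -/
noncomputable def bigMap (P : Submodule ℂ (Additive Γ →+ ℂ)) (s u : G) :
    (P × ((G ⧸ Γ) → ℂ)) →ₗ[ℂ] (((G ⧸ Γ) → ℂ) × ((G ⧸ Γ) → ℂ)) where
  toFun p := (totCoc Γ p.1.1 p.2 s, totCoc Γ p.1.1 p.2 u)
  map_add' p q := by
    ext x <;>
    · simp only [totCoc, Prod.fst_add, Prod.snd_add, Submodule.coe_add, coc_add, Pi.add_apply]
      ring
  map_smul' c p := by
    ext x <;>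
    · simp only [totCoc, Prod.smul_fst, Prod.smul_snd, Submodule.coe_smul, coc_smul, Pi.smul_apply,
        smul_eq_mul, RingHom.id_apply]
      ring

omit [Finite (G ⧸ Γ)] in
theorem bigMap_apply (P : Submodule ℂ (Additive Γ →+ ℂ)) (s u : G)
    (p : P × ((G ⧸ Γ) → ℂ)) :
    bigMap Γ P s u p = (totCoc Γ p.1.1 p.2 s, totCoc Γ p.1.1 p.2 u) := rfl

omit [Finite (G ⧸ Γ)] in
/-- Elements of the kernel of `bigMap` are of the form `(0, const)`. -/
theorem eq_of_mem_ker_bigMap (P : Submodule ℂ (Additive Γ →+ ℂ)) {s t : G}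
    (hgen : Subgroup.closure {s, t} = ⊤) {p : P × ((G ⧸ Γ) → ℂ)}
    (hp : bigMap Γ P s (s * t) p = 0) :
    p.1 = 0 ∧ ∀ x, p.2 x = p.2 ((1 : G) : G ⧸ Γ) := by
  rw [bigMap_apply, Prod.mk_eq_zero] at hp
  obtain ⟨hs, hu⟩ := hp
  -- the cocycle vanishes on `t`
  have hsinv : totCoc Γ p.1.1 p.2 s⁻¹ = 0 :=
    totCoc_eq_zero_of_gen Γ p.1.1 p.2 (k := {s}) (by rintro g rfl; exact hs)
      (Subgroup.inv_mem _ (Subgroup.subset_closure rfl))
  have ht : totCoc Γ p.1.1 p.2 t = 0 := by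
    funext x
    have h1 := totCoc_mul Γ p.1.1 p.2 s⁻¹ (s * t) x
    rw [inv_mul_cancel_left, hsinv, hu] at h1
    simpa using h1
  have hall : ∀ g : G, totCoc Γ p.1.1 p.2 g = 0 := fun g =>
    totCoc_eq_zero_of_gen Γ p.1.1 p.2 (k := {s, t})
      (by rintro h (rfl | rfl); exacts [hs, ht]) (by rw [hgen]; trivial)
  have hφ : p.1.1 = 0 := by
    refine AddMonoidHom.ext fun γ' => ?_
    have hγ : ((Additive.toMul γ' : Γ) : G) ∈ Γ := (Additive.toMul γ').2
    set γ : G := ((Additive.toMul γ' : Γ) : G) with hγdef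
    have hγ' : γ' = Additive.ofMul ⟨γ, hγ⟩ := rfl
    rw [hγ']
    have h1 := congrFun (hall γ) ((1 : G) : G ⧸ Γ)
    simp only [totCoc, Pi.zero_apply] at h1
    rw [coc_of_mem Γ p.1.1 hγ, extHom_of_mem Γ p.1.1 hγ] at h1
    have h2 : γ • ((1 : G) : G ⧸ Γ) = ((1 : G) : G ⧸ Γ) := by
      show ((γ * 1 : G) : G ⧸ Γ) = _
      rw [QuotientGroup.eq]
      simpa using Γ.inv_mem hγ
    rw [h2, sub_self, add_zero] at h1
    exact h1
  refine ⟨Subtype.ext hφ, fun x => ?_⟩
  induction x using QuotientGroup.induction_on with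
  | H r =>
    have h1 := congrFun (hall r) ((1 : G) : G ⧸ Γ)
    simp only [totCoc, Pi.zero_apply, hφ] at h1
    have h2 : r • ((1 : G) : G ⧸ Γ) = (r : G ⧸ Γ) := by
      show ((r * 1 : G) : G ⧸ Γ) = _
      rw [mul_one]
    have h3 : coc Γ (0 : Additive Γ →+ ℂ) r ((1 : G) : G ⧸ Γ) = 0 := by
      have := coc_smul Γ (0 : ℂ) (0 : Additive Γ →+ ℂ) r
      rw [zero_smul, zero_smul] at this
      exact congrFun this _
    rw [h2, h3, zero_add] at h1
    linear_combination h1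

omit [Finite (G ⧸ Γ)] in
theorem range_bigMap_le (P : Submodule ℂ (Additive Γ →+ ℂ)) {s t : G}
    (hs : Kills Γ P s) (hu : Kills Γ P (s * t)) (ht : Kills Γ P t) :
    LinearMap.range (bigMap Γ P s (s * t))
      ≤ pairSpace (cob (X := G ⧸ Γ) s) (cob (X := G ⧸ Γ) (s * t)) (cob (X := G ⧸ Γ) t) := by
  rintro _ ⟨p, rfl⟩
  rw [bigMap_apply, mem_pairSpace]
  refine ⟨totCoc_mem_cob Γ hs p.1.2 p.2, totCoc_mem_cob Γ hu p.1.2 p.2, ?_⟩
  have h1 := totCoc_mem_cob Γ ht p.1.2 p.2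
  have h2 := pull_sub_mem_cob (X := G ⧸ Γ) t (totCoc Γ p.1.1 p.2 s)
  have : totCoc Γ p.1.1 p.2 (s * t) - totCoc Γ p.1.1 p.2 s
      = (fun x => totCoc Γ p.1.1 p.2 s (t • x) - totCoc Γ p.1.1 p.2 s x) + totCoc Γ p.1.1 p.2 t := by
    funext x
    simp only [Pi.sub_apply, Pi.add_apply, totCoc_mul]
    ring
  show totCoc Γ p.1.1 p.2 (s * t) - totCoc Γ p.1.1 p.2 s ∈ _
  rw [this]
  exact Submodule.add_mem _ h2 h1

/-- **Main inequality.** -/
theorem finite_and_finrank_add_nOrb_le (P : Submodule ℂ (Additive Γ →+ ℂ)) {s t : G}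
    (hgen : Subgroup.closure {s, t} = ⊤)
    (hs : Kills Γ P s) (hu : Kills Γ P (s * t)) (ht : Kills Γ P t) :
    Module.Finite ℂ P ∧
      finrank ℂ P + nOrb (G ⧸ Γ) s + nOrb (G ⧸ Γ) (s * t) + nOrb (G ⧸ Γ) t
        ≤ Nat.card (G ⧸ Γ) + 2 := by
  classical
  -- finite-dimensionality of `P`
  have hfin : Module.Finite ℂ P := by
    let j : P →ₗ[ℂ] (((G ⧸ Γ) → ℂ) × ((G ⧸ Γ) → ℂ)) :=
      (bigMap Γ P s (s * t)).comp (LinearMap.inl ℂ P ((G ⧸ Γ) → ℂ))
    refine Module.Finite.of_injective j ?_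
    rw [injective_iff_map_eq_zero]
    intro φ hφ
    exact (eq_of_mem_ker_bigMap Γ P hgen (p := (φ, 0)) hφ).1
  refine ⟨hfin, ?_⟩
  set n := Nat.card (G ⧸ Γ) with hn
  have h1 := LinearMap.finrank_range_add_finrank_ker (bigMap Γ P s (s * t))
  rw [Module.finrank_prod, finrank_fun_eq] at h1
  -- kernel is at most one-dimensional
  have hker : finrank ℂ (LinearMap.ker (bigMap Γ P s (s * t))) ≤ 1 := by
    let ev : LinearMap.ker (bigMap Γ P s (s * t)) →ₗ[ℂ] ℂ :=
      { toFun := fun p => p.1.2 ((1 : G) : G ⧸ Γ)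
        map_add' := fun p q => rfl
        map_smul' := fun c p => rfl }
    have hev : Function.Injective ev := by
      rw [injective_iff_map_eq_zero]
      rintro ⟨p, hp⟩ h0
      have h0' : p.2 ((1 : G) : G ⧸ Γ) = 0 := h0
      obtain ⟨h1, h2⟩ := eq_of_mem_ker_bigMap Γ P hgen (LinearMap.mem_ker.mp hp)
      apply Subtype.ext
      apply Prod.ext h1
      funext x
      rw [h2 x, h0']
      rfl
    have := LinearMap.finrank_le_finrank_of_injective hev
    simpa using this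
  have hrange := Submodule.finrank_mono (range_bigMap_le Γ P hs hu ht)
  have hZ := finrank_pairSpace_add_le (cob (X := G ⧸ Γ) s) (cob (X := G ⧸ Γ) (s * t))
    (cob (X := G ⧸ Γ) t)
  have haug := Submodule.finrank_mono (ker_aug_le_cob_sup_cob (X := G ⧸ Γ) hgen)
  have haug' := card_le_finrank_ker_aug_add_one (X := G ⧸ Γ)
  have hcs := finrank_cob_add_nOrb_le (X := G ⧸ Γ) s
  have hcu := finrank_cob_add_nOrb_le (X := G ⧸ Γ) (s * t)
  have hct := finrank_cob_add_nOrb_le (X := G ⧸ Γ) t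
  omega

end Main

/-! ### Specialisation to `Γ₀(N) ≤ SL(2, ℤ)` -/

section Gamma0

open MatrixGroups ModularGroup CongruenceSubgroup ModularCurve.Period

theorem S_pow_four : (S : SL(2, ℤ)) ^ 4 = 1 := by decide

theorem ST_pow_six : (S * T : SL(2, ℤ)) ^ 6 = 1 := by decide

theorem T_pow_mem_Gamma (N : ℕ) : (T : SL(2, ℤ)) ^ N ∈ Gamma N := by
  rw [Gamma_mem, ← zpow_natCast, coe_T_zpow]
  simp

theorem Gamma_le_Gamma0' (N : ℕ) : Gamma N ≤ Gamma0 N := by
  intro γ hγ
  rw [Gamma_mem] at hγ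
  rw [Gamma0_mem]
  exact hγ.2.2.1

theorem conj_T_pow_mem_Gamma0 (N : ℕ) (r : SL(2, ℤ)) : r⁻¹ * T ^ N * r ∈ Gamma0 N := by
  apply Gamma_le_Gamma0' N
  have := (Gamma_normal N).conj_mem _ (T_pow_mem_Gamma N) r⁻¹
  simpa using this

theorem trace_conj_T_pow (N : ℕ) (r : SL(2, ℤ)) :
    ((r⁻¹ * T ^ N * r : SL(2, ℤ)) : Matrix (Fin 2) (Fin 2) ℤ).trace = 2 := by
  have h1 : ((r⁻¹ * T ^ N * r : SL(2, ℤ)) : Matrix (Fin 2) (Fin 2) ℤ)
      = (r⁻¹ : SL(2, ℤ)).1 * ((T ^ N : SL(2, ℤ)).1 * r.1) := by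
    rw [mul_assoc]; rfl
  rw [h1, Matrix.trace_mul_comm, Matrix.mul_assoc]
  have h2 : r.1 * (r⁻¹ : SL(2, ℤ)).1 = 1 := by
    have : ((r * r⁻¹ : SL(2, ℤ)) : Matrix (Fin 2) (Fin 2) ℤ) = 1 := by
      rw [mul_inv_cancel]; rfl
    exact this
  rw [h2, Matrix.mul_one]
  have h3 : ((T ^ N : SL(2, ℤ)) : Matrix (Fin 2) (Fin 2) ℤ) = !![1, (N : ℤ); 0, 1] := by
    rw [← zpow_natCast, coe_T_zpow]
  show ((T ^ N : SL(2, ℤ)) : Matrix (Fin 2) (Fin 2) ℤ).trace = 2
  rw [h3, Matrix.trace_fin_two_of]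
  norm_num

/-- **Block H.** The parabolic homomorphisms `Γ₀(N) → ℂ` form a finite-dimensional space with
`dim + #orbits(S) + #orbits(S T) + #orbits(T) ≤ [SL(2,ℤ) : Γ₀(N)] + 2` (orbits on
`SL(2, ℤ) ⧸ Γ₀(N)`). -/
theorem parabolicHoms_finite_and_finrank_le (N : ℕ) [NeZero N] :
    Module.Finite ℂ (parabolicHoms ℂ (Gamma0 N) ℂ) ∧
      finrank ℂ (parabolicHoms ℂ (Gamma0 N) ℂ)
          + nOrb (SL(2, ℤ) ⧸ Gamma0 N) (S : SL(2, ℤ))
          + nOrb (SL(2, ℤ) ⧸ Gamma0 N) (S * T : SL(2, ℤ))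
          + nOrb (SL(2, ℤ) ⧸ Gamma0 N) (T : SL(2, ℤ))
        ≤ Nat.card (SL(2, ℤ) ⧸ Gamma0 N) + 2 := by
  have hN : 0 < N := Nat.pos_of_ne_zero (NeZero.ne N)
  refine finite_and_finrank_add_nOrb_le (Gamma0 N) (parabolicHoms ℂ (Gamma0 N) ℂ)
    SpecialLinearGroup.SL2Z_generators
    (kills_of_pow_eq_one _ _ (by norm_num) S_pow_four)
    (kills_of_pow_eq_one _ _ (by norm_num) ST_pow_six) ?_
  refine ⟨N, hN, fun r => ⟨conj_T_pow_mem_Gamma0 N r, fun φ hφ => ?_⟩⟩
  rw [extHom_of_mem _ φ (conj_T_pow_mem_Gamma0 N r)]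
  refine hφ ⟨_, conj_T_pow_mem_Gamma0 N r⟩ ?_
  show ((r⁻¹ * T ^ N * r : SL(2, ℤ)) : Matrix (Fin 2) (Fin 2) ℤ).trace ^ 2 = 4
  rw [trace_conj_T_pow]
  norm_num

end Gamma0

end Fermat.Agent.S21.ParabolicBound
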