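/-
S21, block H, corollary (owner: helper84): `dim_ℂ Hom_par(Γ₀(N), ℂ) ≤ 2 g`, with `g` the classical
genus formula, from `ParabolicBound` and the S24 orbit counts (`CombNumerics`).
-/
import Fermat.Agent.S21.ParabolicBound
import Fermat.Agent.S24.CombNumerics

set_option autoImplicit false

open Module MatrixGroups ModularGroup CongruenceSubgroup ModularCurve.Period

namespace Fermat.Agent.S21.ParabolicGenus

open Fermat.Agent.S21.ParabolicBound Fermat.Agent.S24.Comb

/-- `dim_ℂ Hom_par(Γ₀(N), ℂ) ≤ 2 g(N)`. -/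
theorem finrank_parabolicHoms_le (N : ℕ) [NeZero N] :
    (finrank ℂ (parabolicHoms ℂ (Gamma0 N) ℂ) : ℚ) ≤ 2 * ModularCurve.genusFormula N := by
  obtain ⟨-, hle⟩ := parabolicHoms_finite_and_finrank_le N
  obtain ⟨hcard, h3, h2, hT, -⟩ := numerics N
  change finrank ℂ (parabolicHoms ℂ (Gamma0 N) ℂ) + numOrbits (X0 N) S
    + numOrbits (X0 N) (S * T) + numOrbits (X0 N) T ≤ Nat.card (X0 N) + 2 at hle
  have hle' : (finrank ℂ (parabolicHoms ℂ (Gamma0 N) ℂ) : ℚ) + numOrbits (X0 N) S
      + numOrbits (X0 N) (S * T) + numOrbits (X0 N) T ≤ Nat.card (X0 N) + 2 := by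
    exact_mod_cast hle
  have h3' : (3 : ℚ) * numOrbits (X0 N) (S * T)
      = ModularCurve.dedekindPsi N + 2 * ModularCurve.nuThree N := by exact_mod_cast h3
  have h2' : (2 : ℚ) * numOrbits (X0 N) S
      = ModularCurve.dedekindPsi N + ModularCurve.nuTwo N := by exact_mod_cast h2
  have hT' : (numOrbits (X0 N) T : ℚ) = ModularCurve.cuspCount N := by exact_mod_cast hT
  have hc' : (Nat.card (X0 N) : ℚ) = ModularCurve.dedekindPsi N := by exact_mod_cast hcard
  unfold ModularCurve.genusFormula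
  linarith

theorem parabolicHoms_finite (N : ℕ) [NeZero N] :
    Module.Finite ℂ (parabolicHoms ℂ (Gamma0 N) ℂ) :=
  (parabolicHoms_finite_and_finrank_le N).1

end Fermat.Agent.S21.ParabolicGenus
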