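/-
S20 / S21 assembly (owner: helper84).  From
  (I)  `Function.Injective (periodHomPair N)` and
  (L)  `genusFormula N ≤ dim S₂(Γ₀(N))`
we get both frozen statements, using the landed blocks
  (U)  `ParabolicGenus.finrank_parabolicHoms_le`  (dim Hom_par ≤ 2 g) and
  (P)  `PeriodBasics.range_periodHomPair_le`      (range ⊆ Hom_par).
-/
import Fermat.Agent.S21.ParabolicGenus
import Fermat.Agent.S21.PeriodBasics

set_option autoImplicit false

open Module CongruenceSubgroup ModularCurve ModularCurve.Period

namespace Fermat.Agent.S21.Assembly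

open Fermat.Agent.S21

variable (N : ℕ) [NeZero N]

/-- Injectivity of the period pair map makes `S₂(Γ₀(N))` finite-dimensional (it embeds into the
finite-dimensional space of parabolic homomorphisms). -/
theorem finite_cuspForm_of_injective (hI : Function.Injective (periodHomPair N)) :
    Module.Finite ℂ (CuspForm (Gamma0 N) 2) := by
  have := ParabolicGenus.parabolicHoms_finite N
  -- `f ↦ periodHomPair N (f, 0)` lands in the parabolic homs
  let j : CuspForm (Gamma0 N) 2 →ₗ[ℂ] parabolicHoms ℂ (Gamma0 N) ℂ :=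
    LinearMap.codRestrict _ ((periodHomPair N).comp (LinearMap.inl ℂ _ _))
      (fun f => PeriodBasics.range_periodHomPair_le N ⟨(f, 0), rfl⟩)
  refine Module.Finite.of_injective j ?_
  intro f g hfg
  have h1 : periodHomPair N (f, 0) = periodHomPair N (g, 0) := congrArg Subtype.val hfg
  have := hI h1
  exact (Prod.ext_iff.mp this).1

/-- `2 dim S₂ ≤ dim Hom_par`. -/
theorem two_mul_finrank_le (hI : Function.Injective (periodHomPair N)) :
    2 * finrank ℂ (CuspForm (Gamma0 N) 2) ≤ finrank ℂ (parabolicHoms ℂ (Gamma0 N) ℂ) := by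
  have := ParabolicGenus.parabolicHoms_finite N
  have := finite_cuspForm_of_injective N hI
  let j : (CuspForm (Gamma0 N) 2 × CuspForm (Gamma0 N) 2) →ₗ[ℂ] parabolicHoms ℂ (Gamma0 N) ℂ :=
    LinearMap.codRestrict _ (periodHomPair N)
      (fun p => PeriodBasics.range_periodHomPair_le N ⟨p, rfl⟩)
  have hj : Function.Injective j := by
    intro p q hpq
    exact hI (congrArg Subtype.val hpq)
  have := LinearMap.finrank_le_finrank_of_injective hj
  rw [Module.finrank_prod] at this
  omega

/-- **S20 from (I) and (L).** -/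
theorem finrank_cuspForm_eq_genusFormula (hI : Function.Injective (periodHomPair N))
    (hL : genusFormula N ≤ (finrank ℂ (CuspForm (Gamma0 N) 2) : ℚ)) :
    (finrank ℂ (CuspForm (Gamma0 N) 2) : ℚ) = genusFormula N := by
  have h1 := two_mul_finrank_le N hI
  have h2 := ParabolicGenus.finrank_parabolicHoms_le N
  have h1' : (2 : ℚ) * finrank ℂ (CuspForm (Gamma0 N) 2)
      ≤ finrank ℂ (parabolicHoms ℂ (Gamma0 N) ℂ) := by exact_mod_cast h1
  linarith

/-- **S21 from (I) and (L).** -/
theorem eichlerShimura (hI : Function.Injective (periodHomPair N))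
    (hL : genusFormula N ≤ (finrank ℂ (CuspForm (Gamma0 N) 2) : ℚ)) :
    Function.Injective (periodHomPair N)
      ∧ LinearMap.range (periodHomPair N) = parabolicHoms ℂ (Gamma0 N) ℂ := by
  refine ⟨hI, ?_⟩
  have := ParabolicGenus.parabolicHoms_finite N
  have := finite_cuspForm_of_injective N hI
  refine Submodule.eq_of_le_of_finrank_le (PeriodBasics.range_periodHomPair_le N) ?_
  have h2 := ParabolicGenus.finrank_parabolicHoms_le N
  have h3 : finrank ℂ (LinearMap.range (periodHomPair N))
      = finrank ℂ (CuspForm (Gamma0 N) 2 × CuspForm (Gamma0 N) 2) :=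
    LinearMap.finrank_range_of_inj hI
  rw [h3, Module.finrank_prod]
  have h4 : (finrank ℂ (parabolicHoms ℂ (Gamma0 N) ℂ) : ℚ)
      ≤ 2 * (finrank ℂ (CuspForm (Gamma0 N) 2) : ℚ) := by linarith
  have : (finrank ℂ (parabolicHoms ℂ (Gamma0 N) ℂ) : ℚ)
      ≤ ((finrank ℂ (CuspForm (Gamma0 N) 2) + finrank ℂ (CuspForm (Gamma0 N) 2) : ℕ) : ℚ) := by
    push_cast; linarith
  exact_mod_cast this

end Fermat.Agent.S21.Assembly
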