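import Mathlib

/-!
# S21, block I.1: a maximum principle on `Γ₀(N) \ ℍ*` for functions with invariant NORM

`ψ : ℍ → ℂ` holomorphic, `‖ψ‖` invariant under `Γ₀(N)`, every `SL(2,ℤ)`-translate `N`-periodic and
bounded at `i∞`  ⟹  `ψ` is constant.
-/

set_option autoImplicit false

open UpperHalfPlane CongruenceSubgroup Function Complex Filter Topology Metric
open scoped MatrixGroups Manifold Real

namespace Fermat.Agent.S21.MaxNorm

local notation "𝕢" => Periodic.qParam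

/-- the translate `w ↦ ψ (δ • w)` as a function on `ℂ` -/
noncomputable def tr (ψ : ℍ → ℂ) (δ : SL(2, ℤ)) : ℂ → ℂ := fun w => ψ (δ • ofComplex w)

lemma tr_coe (ψ : ℍ → ℂ) (δ : SL(2, ℤ)) (z : ℍ) : tr ψ δ (z : ℂ) = ψ (δ • z) := by
  simp [tr, ofComplex_apply]

lemma ofComplex_add_natCast (N : ℕ) (w : ℂ) (hw : 0 < w.im) :
    ofComplex (w + (N : ℝ)) = ((N : ℝ) +ᵥ ofComplex w : ℍ) := by
  have hw' : 0 < (w + ((N : ℝ) : ℂ)).im := by simpa using hw
  rw [ofComplex_apply_of_im_pos hw', ofComplex_apply_of_im_pos hw]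
  ext
  simp [add_comm]

lemma tr_periodic (N : ℕ) (ψ : ℍ → ℂ)
    (hper : ∀ (δ : SL(2, ℤ)) (z : ℍ), ψ (δ • ((N : ℝ) +ᵥ z)) = ψ (δ • z)) (δ : SL(2, ℤ)) :
    Periodic (tr ψ δ) (N : ℝ) := by
  intro w
  by_cases hw : 0 < w.im
  · simp only [tr]
    rw [ofComplex_add_natCast N w hw, hper]
  · have hw' : ¬ 0 < (w + ((N : ℝ) : ℂ)).im := by simpa using hw
    simp only [tr]
    rw [ofComplex_apply_eq_ite, ofComplex_apply_eq_ite, dif_neg hw, dif_neg hw']

lemma tr_differentiableAt (ψ : ℍ → ℂ) (hol : MDifferentiable 𝓘(ℂ) 𝓘(ℂ) ψ) (δ : SL(2, ℤ))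
    {w : ℂ} (hw : 0 < w.im) : DifferentiableAt ℂ (tr ψ δ) w := by
  have h1 : MDifferentiable 𝓘(ℂ) 𝓘(ℂ) (fun z : ℍ => ψ (δ • z)) := by
    have := hol.comp (mdifferentiable_smul (g := (δ : GL (Fin 2) ℝ)) (by simp))
    exact this
  have h2 := mdifferentiableAt_iff.mp (h1 ⟨w, hw⟩)
  exact h2


lemma tr_boundedAtFilter (ψ : ℍ → ℂ) (δ : SL(2, ℤ))
    (hbdd : IsBoundedAtImInfty (fun z : ℍ => ψ (δ • z))) :
    BoundedAtFilter (comap Complex.im atTop) (tr ψ δ) :=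
  hbdd.comp_tendsto tendsto_comap_im_ofComplex

section main

variable (N : ℕ) [NeZero N] (ψ : ℍ → ℂ)

/-- the cusp function of the translate by `δ`, for period `N` -/
noncomputable def cf (δ : SL(2, ℤ)) : ℂ → ℂ := Periodic.cuspFunction (N : ℝ) (tr ψ δ)

lemma natCast_pos : (0 : ℝ) < (N : ℝ) := Nat.cast_pos.mpr (NeZero.pos N)

variable {N ψ}

lemma cf_qParam
    (hper : ∀ (δ : SL(2, ℤ)) (z : ℍ), ψ (δ • ((N : ℝ) +ᵥ z)) = ψ (δ • z)) (δ : SL(2, ℤ)) (z : ℍ) :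
    cf N ψ δ (𝕢 (N : ℝ) (z : ℂ)) = ψ (δ • z) := by
  rw [cf, Periodic.eq_cuspFunction (natCast_pos N).ne' (tr_periodic N ψ hper δ), tr_coe]

lemma cf_differentiableOn (hol : MDifferentiable 𝓘(ℂ) 𝓘(ℂ) ψ)
    (hper : ∀ (δ : SL(2, ℤ)) (z : ℍ), ψ (δ • ((N : ℝ) +ᵥ z)) = ψ (δ • z))
    (hbdd : ∀ δ : SL(2, ℤ), IsBoundedAtImInfty (fun z : ℍ => ψ (δ • z))) (δ : SL(2, ℤ)) :
    DifferentiableOn ℂ (cf N ψ δ) (ball 0 1) := by
  intro q hq
  refine DifferentiableAt.differentiableWithinAt ?_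
  have hq1 : ‖q‖ < 1 := by simpa using hq
  rcases eq_or_ne q 0 with rfl | hq0
  · refine Periodic.differentiableAt_cuspFunction_zero (natCast_pos N) (tr_periodic N ψ hper δ) ?_
      (tr_boundedAtFilter ψ δ (hbdd δ))
    have : ∀ᶠ z : ℂ in comap Complex.im atTop, 0 < z.im :=
      (tendsto_comap (f := Complex.im) (x := atTop)).eventually (eventually_gt_atTop 0)
    filter_upwards [this] with z hz using tr_differentiableAt ψ hol δ hz
  · have him : 0 < (Periodic.invQParam (N : ℝ) q).im :=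
      Periodic.im_invQParam_pos_of_norm_lt_one (natCast_pos N) hq1 hq0
    have := Periodic.differentiableAt_cuspFunction (natCast_pos N).ne' (tr_periodic N ψ hper δ)
      (tr_differentiableAt ψ hol δ him)
    rwa [Periodic.qParam_right_inv (natCast_pos N).ne' hq0] at this

/-- **Maximum principle.** -/
theorem eq_of_norm_invariant (hol : MDifferentiable 𝓘(ℂ) 𝓘(ℂ) ψ)
    (hinv : ∀ γ ∈ Gamma0 N, ∀ z : ℍ, ‖ψ (γ • z)‖ = ‖ψ z‖)
    (hper : ∀ (δ : SL(2, ℤ)) (z : ℍ), ψ (δ • ((N : ℝ) +ᵥ z)) = ψ (δ • z))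
    (hbdd : ∀ δ : SL(2, ℤ), IsBoundedAtImInfty (fun z : ℍ => ψ (δ • z))) :
    ∀ z w : ℍ, ψ z = ψ w := by
  have hN := natCast_pos N
  set r : ℝ := Real.exp (-π / N) with hr
  have hr1 : r < 1 := by
    rw [hr, Real.exp_lt_one_iff]
    exact div_neg_of_neg_of_pos (neg_lt_zero.mpr Real.pi_pos) hN
  have hr0 : 0 ≤ r := (Real.exp_pos _).le
  have hKball : closedBall (0 : ℂ) r ⊆ ball 0 1 := closedBall_subset_ball hr1
  have hK : IsCompact (closedBall (0 : ℂ) r) := isCompact_closedBall 0 r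
  have hKne : (closedBall (0 : ℂ) r).Nonempty := ⟨0, by simpa using hr0⟩
  -- representatives
  let rep : SL(2, ℤ) ⧸ Gamma0 N → SL(2, ℤ) := fun c => (Quotient.out c)⁻¹
  have hmax : ∀ c : SL(2, ℤ) ⧸ Gamma0 N, ∃ q ∈ closedBall (0 : ℂ) r,
      ∀ q' ∈ closedBall (0 : ℂ) r, ‖cf N ψ (rep c) q'‖ ≤ ‖cf N ψ (rep c) q‖ := by
    intro c
    have hcont : ContinuousOn (fun q => ‖cf N ψ (rep c) q‖) (closedBall (0 : ℂ) r) :=
      ((cf_differentiableOn hol hper hbdd (rep c)).continuousOn.mono hKball).norm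
    obtain ⟨q, hq, hqmax⟩ := hK.exists_isMaxOn hKne hcont
    exact ⟨q, hq, fun q' hq' => hqmax hq'⟩
  choose qc hqc hqcmax using hmax
  have : Finite (SL(2, ℤ) ⧸ Gamma0 N) := Subgroup.finite_quotient_of_finiteIndex
  obtain ⟨c0, hc0⟩ := Finite.exists_max (fun c => ‖cf N ψ (rep c) (qc c)‖)
  set M : ℝ := ‖cf N ψ (rep c0) (qc c0)‖ with hM
  -- global bound
  have hbound : ∀ z : ℍ, ‖ψ z‖ ≤ M := by
    intro z
    obtain ⟨g, hg⟩ := ModularGroup.exists_one_half_le_im_smul z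
    set w : ℍ := g • z with hw
    set c : SL(2, ℤ) ⧸ Gamma0 N := QuotientGroup.mk g with hc
    obtain ⟨h, hh⟩ : ∃ h : Gamma0 N, Quotient.out c = g * h := QuotientGroup.mk_out_eq_mul _ g
    have hz : z = (h : SL(2, ℤ)) • (rep c • w) := by
      simp only [rep, hh, hw]
      rw [← mul_smul, ← mul_smul]
      simp
    have h1 : ‖ψ z‖ = ‖ψ (rep c • w)‖ := by
      conv_lhs => rw [hz]
      exact hinv h h.2 _
    have h2 : ψ (rep c • w) = cf N ψ (rep c) (𝕢 (N : ℝ) (w : ℂ)) := (cf_qParam hper _ _).symm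
    have h3 : 𝕢 (N : ℝ) (w : ℂ) ∈ closedBall (0 : ℂ) r := by
      rw [mem_closedBall_zero_iff, Periodic.norm_qParam, hr]
      apply Real.exp_le_exp.mpr
      have : (1 / 2 : ℝ) ≤ (w : ℂ).im := hg
      rw [div_le_div_iff_of_pos_right hN]
      nlinarith [Real.pi_pos]
    calc ‖ψ z‖ = ‖cf N ψ (rep c) (𝕢 (N : ℝ) (w : ℂ))‖ := by rw [h1, h2]
      _ ≤ ‖cf N ψ (rep c) (qc c)‖ := hqcmax c _ h3
      _ ≤ M := hc0 c
  -- the cusp function at `c0` has an interior maximum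
  have hdiff := cf_differentiableOn hol hper hbdd (rep c0)
  have hle_ne : ∀ q ∈ ball (0 : ℂ) 1, q ≠ 0 → ‖cf N ψ (rep c0) q‖ ≤ M := by
    intro q hq hq0
    have hq1 : ‖q‖ < 1 := by simpa using hq
    have him : 0 < (Periodic.invQParam (N : ℝ) q).im :=
      Periodic.im_invQParam_pos_of_norm_lt_one hN hq1 hq0
    have := cf_qParam hper (rep c0) ⟨_, him⟩
    rw [UpperHalfPlane.coe_mk, Periodic.qParam_right_inv hN.ne' hq0] at this
    rw [this]
    exact hbound _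
  have hle : ∀ q ∈ ball (0 : ℂ) 1, ‖cf N ψ (rep c0) q‖ ≤ M := by
    intro q hq
    rcases eq_or_ne q 0 with rfl | hq0
    · have hcont : ContinuousAt (cf N ψ (rep c0)) 0 :=
        (hdiff.differentiableAt (ball_mem_nhds 0 one_pos)).continuousAt
      have ht : Tendsto (fun q => ‖cf N ψ (rep c0) q‖) (𝓝[≠] 0) (𝓝 ‖cf N ψ (rep c0) 0‖) :=
        (hcont.norm.tendsto).mono_left nhdsWithin_le_nhds
      refine le_of_tendsto ht ?_
      have : ∀ᶠ q : ℂ in 𝓝[≠] 0, q ∈ ball (0 : ℂ) 1 :=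
        nhdsWithin_le_nhds (ball_mem_nhds 0 one_pos)
      filter_upwards [this, self_mem_nhdsWithin] with q hq hq0 using hle_ne q hq hq0
    · exact hle_ne q hq hq0
  have hq0mem : qc c0 ∈ ball (0 : ℂ) 1 := hKball (hqc c0)
  have hismax : IsMaxOn (norm ∘ cf N ψ (rep c0)) (ball (0 : ℂ) 1) (qc c0) := by
    intro q hq
    exact hle q hq
  have hconst := Complex.eqOn_of_isPreconnected_of_isMaxOn_norm
    (convex_ball (0 : ℂ) 1).isPreconnected isOpen_ball hdiff hq0mem hismax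
  -- conclude
  have key : ∀ z : ℍ, ψ z = cf N ψ (rep c0) (qc c0) := by
    intro z
    have hz : z = rep c0 • ((rep c0)⁻¹ • z) := by rw [← mul_smul]; simp
    rw [hz, ← cf_qParam hper]
    refine hconst ?_
    rw [mem_ball_zero_iff]
    exact Periodic.norm_qParam_lt_one hN (UpperHalfPlane.im_pos _)
  intro z w
  rw [key z, key w]

end main

end Fermat.Agent.S21.MaxNorm
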