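import Mathlib
import Fermat.Prelude.Def_ModularCurve_PeriodHomPair
import Fermat.Agent.S21.MaxNorm

/-!
# S21, block I: injectivity of `ModularCurve.periodHomPair N`

given that every weight-2 cusp form has an equivariant primitive (Prelude sense) and that the
period map is linear.
-/

set_option autoImplicit false

open UpperHalfPlane CongruenceSubgroup Function Complex Filter Topology
open ModularCurve ModularCurve.Period
open scoped MatrixGroups Manifold Real ComplexConjugate ModularForm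

namespace Fermat.Agent.S21.Injective

/-- `J ∘ γ = (jConj γ) ∘ J` on `ℍ`. -/
lemma J_smul_smul (γ : SL(2, ℤ)) (z : ℍ) :
    J • (γ • z) = (jConjSL γ) • (J • z) := by
  ext
  rw [coe_J_smul, coe_specialLinearGroup_apply, coe_specialLinearGroup_apply, coe_J_smul]
  simp only [jConjSL_coe, jConjMat_apply_zero_zero, jConjMat_apply_zero_one,
    jConjMat_apply_one_zero, jConjMat_apply_one_one, map_div₀, map_add, map_mul, map_neg,
    eq_intCast, Complex.ofReal_neg, Complex.ofReal_intCast]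
  simp only [map_intCast]
  rw [← neg_div]
  congr 1 <;> ring


lemma J_smul_J_smul (z : ℍ) : J • (J • z) = z := by
  rw [← mul_smul, ← sq, J_sq, one_smul]

lemma im_J_smul (z : ℍ) : (J • z).im = z.im := by
  have := congrArg Complex.im (coe_J_smul z)
  simpa using this

lemma tendsto_J_smul : Tendsto (fun z : ℍ => J • z) atImInfty atImInfty := by
  simp only [atImInfty, tendsto_comap_iff, Function.comp_def, im_J_smul]
  exact tendsto_comap

lemma tendsto_vadd (x : ℝ) : Tendsto (fun z : ℍ => x +ᵥ z) atImInfty atImInfty := by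
  simp only [atImInfty, tendsto_comap_iff, Function.comp_def, vadd_im]
  exact tendsto_comap

lemma Gamma_le_Gamma0 (N : ℕ) : CongruenceSubgroup.Gamma N ≤ Gamma0 N := by
  intro γ hγ
  rw [Gamma_mem] at hγ
  rw [Gamma0_mem]
  exact hγ.2.2.1

/-- `δ T^N δ⁻¹ ∈ Γ₀(N)` -/
lemma conj_T_pow_mem (N : ℕ) (δ : SL(2, ℤ)) :
    δ * ModularGroup.T ^ (N : ℤ) * δ⁻¹ ∈ Gamma0 N := by
  apply Gamma_le_Gamma0
  have h := ModularGroup_T_pow_mem_Gamma (N : ℤ) (N : ℤ) dvd_rfl
  rw [Int.natAbs_natCast] at h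
  exact (Gamma_normal N).conj_mem _ h δ

lemma smul_vadd_eq (N : ℕ) (δ : SL(2, ℤ)) (z : ℍ) :
    δ • ((N : ℝ) +ᵥ z) = (δ * ModularGroup.T ^ (N : ℤ) * δ⁻¹) • (δ • z) := by
  rw [← mul_smul, inv_mul_cancel_right, mul_smul, modular_T_zpow_smul]
  simp

section prim

variable {N : ℕ} {u : CuspForm (Gamma0 N) 2} {F : ℍ → ℂ}

lemma mdiff_of_prim (hu : HasEquivariantPrimitive N u F) : MDifferentiable 𝓘(ℂ) 𝓘(ℂ) F :=
  fun τ => mdifferentiableAt_iff.mpr (hu.1 τ).differentiableAt

/-- the period of an element of `Γ₀(N)` -/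
lemma sub_eq (hu : HasEquivariantPrimitive N u F) (γ : Gamma0 N) (z w : ℍ) :
    F ((γ : SL(2, ℤ)) • z) - F z = F ((γ : SL(2, ℤ)) • w) - F w := by
  rw [hu.2.2.1.sub_eq_period γ z, hu.2.2.1.sub_eq_period γ w]

/-- parabolic periods vanish -/
lemma periodic_of_prim (hu : HasEquivariantPrimitive N u F) (δ : SL(2, ℤ)) (z : ℍ) :
    F (δ • ((N : ℝ) +ᵥ z)) = F (δ • z) := by
  obtain ⟨L, hL⟩ := hu.2.2.2 δ
  have h1 : Tendsto (fun w : ℍ => F (δ • ((N : ℝ) +ᵥ w))) atImInfty (𝓝 L) :=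
    hL.comp (tendsto_vadd (N : ℝ))
  have h2 : Tendsto (fun w : ℍ => F (δ • ((N : ℝ) +ᵥ w)) - F (δ • w)) atImInfty (𝓝 (L - L)) :=
    h1.sub hL
  set γ : Gamma0 N := ⟨δ * ModularGroup.T ^ (N : ℤ) * δ⁻¹, conj_T_pow_mem N δ⟩ with hγ
  have h3 : ∀ w : ℍ, F (δ • ((N : ℝ) +ᵥ w)) - F (δ • w) = F (δ • ((N : ℝ) +ᵥ z)) - F (δ • z) := by
    intro w
    rw [smul_vadd_eq, smul_vadd_eq]
    exact sub_eq hu γ (δ • w) (δ • z)
  have h4 : Tendsto (fun w : ℍ => F (δ • ((N : ℝ) +ᵥ w)) - F (δ • w)) atImInfty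
      (𝓝 (F (δ • ((N : ℝ) +ᵥ z)) - F (δ • z))) := by
    simp only [h3]
    exact tendsto_const_nhds
  have := tendsto_nhds_unique h4 h2
  rw [sub_self, sub_eq_zero] at this
  exact this

end prim


/-- a holomorphic function on `ℍ` whose exponential is constant is constant -/
lemma const_of_exp_const (h : ℍ → ℂ) (hh : MDifferentiable 𝓘(ℂ) 𝓘(ℂ) h)
    (hc : ∀ z w : ℍ, Complex.exp (h z) = Complex.exp (h w)) : ∀ z w : ℍ, h z = h w := by
  set U : Set ℂ := {z | 0 < z.im} with hU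
  have hUo : IsOpen U := isOpen_upperHalfPlaneSet
  have hUc : IsPreconnected U := (convex_halfSpace_im_gt 0).isPreconnected
  have hd : DifferentiableOn ℂ (h ∘ ofComplex) U := UpperHalfPlane.mdifferentiable_iff.mp hh
  have hderiv : U.EqOn (deriv (h ∘ ofComplex)) 0 := by
    intro x hx
    have hdx : DifferentiableAt ℂ (h ∘ ofComplex) x := hd.differentiableAt (hUo.mem_nhds hx)
    have h1 : HasDerivAt (fun w => Complex.exp ((h ∘ ofComplex) w))
        (Complex.exp ((h ∘ ofComplex) x) * deriv (h ∘ ofComplex) x) x := hdx.hasDerivAt.cexp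
    have h2 : (fun w => Complex.exp ((h ∘ ofComplex) w)) =ᶠ[𝓝 x]
        fun _ => Complex.exp (h UpperHalfPlane.I) := by
      filter_upwards [hUo.mem_nhds hx] with w _
      exact hc _ _
    have h3 : HasDerivAt (fun w => Complex.exp ((h ∘ ofComplex) w)) 0 x :=
      (hasDerivAt_const x _).congr_of_eventuallyEq h2
    have h4 := h1.unique h3
    simpa [Complex.exp_ne_zero] using h4
  intro z w
  have := hUo.is_const_of_deriv_eq_zero hUc hd hderiv z.im_pos w.im_pos
  simpa [ofComplex_apply] using this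

section core

variable {N : ℕ} [NeZero N] {u v : CuspForm (Gamma0 N) 2} {Fu Fv : ℍ → ℂ}

/-- the conjugate-reflected primitive `z ↦ conj (Fv (J • z))` -/
noncomputable def refl (F : ℍ → ℂ) : ℍ → ℂ := fun z => conj (F (J • z))

lemma refl_eq_slash (F : ℍ → ℂ) : refl F = F ∣[(0 : ℤ)] J := by
  ext z
  simp [refl, ModularForm.slash_def]

lemma mdiff_refl {F : ℍ → ℂ} (hF : MDifferentiable 𝓘(ℂ) 𝓘(ℂ) F) :
    MDifferentiable 𝓘(ℂ) 𝓘(ℂ) (refl F) := by
  rw [refl_eq_slash]
  exact hF.slash 0 J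


/-- a holomorphic function on `ℍ` whose REAL PART is `Γ₀(N)`-invariant, all of whose
`SL(2,ℤ)`-translates are `N`-periodic with a limit at `i∞`, is constant. -/
lemma const_of_re_invariant (h : ℍ → ℂ) (hh : MDifferentiable 𝓘(ℂ) 𝓘(ℂ) h)
    (hinv : ∀ γ ∈ Gamma0 N, ∀ z : ℍ, (h (γ • z)).re = (h z).re)
    (hper : ∀ (δ : SL(2, ℤ)) (z : ℍ), h (δ • ((N : ℝ) +ᵥ z)) = h (δ • z))
    (hlim : ∀ δ : SL(2, ℤ), ∃ L : ℂ, Tendsto (fun z : ℍ => h (δ • z)) atImInfty (𝓝 L)) :
    ∀ z w : ℍ, h z = h w := by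
  apply const_of_exp_const h hh
  refine MaxNorm.eq_of_norm_invariant (N := N) (ψ := fun z => Complex.exp (h z)) ?_ ?_ ?_ ?_
  · rw [UpperHalfPlane.mdifferentiable_iff]
    exact (UpperHalfPlane.mdifferentiable_iff.mp hh).cexp
  · intro γ hγ z
    simp only [Complex.norm_exp, hinv γ hγ z]
  · intro δ z
    simp only [hper δ z]
  · intro δ
    obtain ⟨L, hL⟩ := hlim δ
    have : Tendsto (fun z : ℍ => Complex.exp (h (δ • z))) atImInfty (𝓝 (Complex.exp L)) :=
      (Complex.continuous_exp.tendsto L).comp hL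
    exact this.isBigO_one ℝ

theorem eq_zero_of_relation (hu : HasEquivariantPrimitive N u Fu)
    (hv : HasEquivariantPrimitive N v Fv)
    (hrel : ∀ (γ : Gamma0 N) (z z' : ℍ),
      (Fu ((γ : SL(2, ℤ)) • z) - Fu z) + (Fv ((jConjSL (γ : SL(2, ℤ))) • z') - Fv z') = 0) :
    u = 0 ∧ v = 0 := by
  have hA : MDifferentiable 𝓘(ℂ) 𝓘(ℂ) Fu := mdiff_of_prim hu
  have hB : MDifferentiable 𝓘(ℂ) 𝓘(ℂ) (refl Fv) := mdiff_refl (mdiff_of_prim hv)
  -- translation behaviour of `B`
  have hBtr : ∀ (γ : Gamma0 N) (z : ℍ), refl Fv ((γ : SL(2, ℤ)) • z) - refl Fv z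
      = - conj (Fu ((γ : SL(2, ℤ)) • z) - Fu z) := by
    intro γ z
    simp only [refl]
    rw [J_smul_smul, ← map_sub, ← map_neg]
    congr 1
    have := hrel γ z (J • z)
    linear_combination this
  have hAper := periodic_of_prim hu
  have hBper : ∀ (δ : SL(2, ℤ)) (z : ℍ), refl Fv (δ • ((N : ℝ) +ᵥ z)) = refl Fv (δ • z) := by
    intro δ z
    have h1 := hBtr ⟨δ * ModularGroup.T ^ (N : ℤ) * δ⁻¹, conj_T_pow_mem N δ⟩ (δ • z)
    simp only [← smul_vadd_eq] at h1
    rw [hAper δ z, sub_self, map_zero, neg_zero, sub_eq_zero] at h1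
    exact h1
  have hAlim := hu.2.2.2
  have hBlim : ∀ δ : SL(2, ℤ), ∃ L : ℂ, Tendsto (fun z : ℍ => refl Fv (δ • z)) atImInfty (𝓝 L) := by
    intro δ
    obtain ⟨L, hL⟩ := hv.2.2.2 (jConjSL δ)
    refine ⟨conj L, ?_⟩
    have h1 : Tendsto (fun z : ℍ => Fv ((jConjSL δ) • (J • z))) atImInfty (𝓝 L) :=
      hL.comp tendsto_J_smul
    have h2 := (Complex.continuous_conj.tendsto L).comp h1
    simpa only [refl, J_smul_smul, Function.comp_def] using h2
  -- `A + B` is constant
  have hsum : ∀ z w : ℍ, Fu z + refl Fv z = Fu w + refl Fv w := by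
    refine const_of_re_invariant (N := N) (fun z => Fu z + refl Fv z) (hA.add hB) ?_ ?_ ?_
    · intro γ hγ z
      have e : Fu (γ • z) + refl Fv (γ • z) = Fu z + refl Fv z
          + ((Fu (γ • z) - Fu z) - conj (Fu (γ • z) - Fu z)) := by
        have := hBtr ⟨γ, hγ⟩ z
        simp only at this
        linear_combination this
      simp only [e, Complex.add_re, Complex.sub_re, Complex.conj_re, sub_self, add_zero]
    · intro δ z
      simp only [hAper δ z, hBper δ z]
    · intro δ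
      obtain ⟨L1, h1⟩ := hAlim δ
      obtain ⟨L2, h2⟩ := hBlim δ
      exact ⟨L1 + L2, h1.add h2⟩
  -- `I * (A - B)` is constant
  have hdiff' : ∀ z w : ℍ, Complex.I * (Fu z - refl Fv z) = Complex.I * (Fu w - refl Fv w) := by
    refine const_of_re_invariant (N := N) (fun z => Complex.I * (Fu z - refl Fv z))
      ((mdifferentiable_const (c := Complex.I)).mul (hA.sub hB)) ?_ ?_ ?_
    · intro γ hγ z
      have e : Complex.I * (Fu (γ • z) - refl Fv (γ • z)) = Complex.I * (Fu z - refl Fv z)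
          + Complex.I * ((Fu (γ • z) - Fu z) + conj (Fu (γ • z) - Fu z)) := by
        have := hBtr ⟨γ, hγ⟩ z
        simp only at this
        linear_combination (-Complex.I) * this
      simp only [e, Complex.add_re, Complex.mul_re, Complex.I_re, Complex.I_im, Complex.add_im,
        Complex.conj_im, Complex.conj_re]
      ring
    · intro δ z
      simp only [hAper δ z, hBper δ z]
    · intro δ
      obtain ⟨L1, h1⟩ := hAlim δ
      obtain ⟨L2, h2⟩ := hBlim δ
      exact ⟨Complex.I * (L1 - L2), (h1.sub h2).const_mul _⟩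
  have hdiff : ∀ z w : ℍ, Fu z - refl Fv z = Fu w - refl Fv w := fun z w =>
    mul_left_cancel₀ Complex.I_ne_zero (hdiff' z w)
  have hAc : ∀ z w : ℍ, Fu z = Fu w := by
    intro z w
    linear_combination (1 / 2 : ℂ) * hsum z w + (1 / 2 : ℂ) * hdiff z w
  have hBc : ∀ z w : ℍ, refl Fv z = refl Fv w := by
    intro z w
    linear_combination (1 / 2 : ℂ) * hsum z w - (1 / 2 : ℂ) * hdiff z w
  have hVc : ∀ z w : ℍ, Fv z = Fv w := by
    intro z w
    have := hBc (J • z) (J • w)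
    simp only [refl, J_smul_J_smul] at this
    exact (starRingEnd ℂ).injective this
  -- a constant primitive has zero derivative
  have hzero : ∀ {f : CuspForm (Gamma0 N) 2} {F : ℍ → ℂ}, HasEquivariantPrimitive N f F →
      (∀ z w : ℍ, F z = F w) → f = 0 := by
    intro f F hf hc
    ext τ
    have h1 := hf.1 τ
    have h2 : (F ∘ ofComplex) =ᶠ[𝓝 (τ : ℂ)] fun _ => F UpperHalfPlane.I :=
      Filter.Eventually.of_forall fun w => hc _ _
    have h3 : HasDerivAt (F ∘ ofComplex) 0 (τ : ℂ) :=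
      (hasDerivAt_const (τ : ℂ) _).congr_of_eventuallyEq h2
    simpa using h1.unique h3
  exact ⟨hzero hu hAc, hzero hv hVc⟩

end core


/-- **Injectivity of the period pair map** (Eichler–Shimura, injective half), given the existence
of equivariant primitives and linearity of the period map. -/
theorem periodHomPair_injective (N : ℕ) [NeZero N]
    (hP : ∀ f : CuspForm (Gamma0 N) 2, ∃ F : ℍ → ℂ, HasEquivariantPrimitive N f F)
    (hlin : ExistsPeriodMapLinear N) : Function.Injective (periodHomPair N) := by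
  obtain ⟨pml, hpml, hdef⟩ := periodHomPair_def N hlin
  rw [← LinearMap.ker_eq_bot, LinearMap.ker_eq_bot']
  rintro ⟨f, g⟩ hfg
  rw [hdef] at hfg
  simp only [LinearMap.coprod_apply, LinearMap.comp_apply, LinearMap.add_apply,
    LinearMap.sub_apply, LinearMap.id_apply] at hfg
  have h1 : pml (f + g) + charInvolution N ℂ ℂ (pml (f - g)) = 0 := by
    rw [map_add, map_sub, map_sub, ← hfg]
    abel
  -- primitives computing the period maps
  obtain ⟨Fu0, hFu0⟩ := hP (f + g)
  obtain ⟨Fu, hFu, hperu⟩ := periodMap_def N (f + g) hFu0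
  obtain ⟨Fv0, hFv0⟩ := hP (f - g)
  obtain ⟨Fv, hFv, hperv⟩ := periodMap_def N (f - g) hFv0
  have hrel : ∀ (γ : Gamma0 N) (z z' : ℍ),
      (Fu ((γ : SL(2, ℤ)) • z) - Fu z) + (Fv ((jConjSL (γ : SL(2, ℤ))) • z') - Fv z') = 0 := by
    intro γ z z'
    have h2 := DFunLike.congr_fun h1 (Additive.ofMul γ)
    rw [AddMonoidHom.add_apply, charInvolution_apply, hpml, hpml, hperu, hperv,
      IsEquivariantPrimitive.periodHom_apply, toMul_ofMul,
      IsEquivariantPrimitive.periodHom_apply,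
      ← hFu.2.2.1.sub_eq_period γ z, ← hFv.2.2.1.sub_eq_period (jConjGamma0 N γ) z'] at h2
    simpa using h2
  obtain ⟨h3, h4⟩ := eq_zero_of_relation hFu hFv hrel
  have hgf : f = g := sub_eq_zero.mp h4
  have hf : f = 0 := by
    rw [← hgf] at h3
    have : (2 : ℂ) • f = 0 := by rw [two_smul]; exact h3
    exact (smul_eq_zero.mp this).resolve_left two_ne_zero
  rw [Prod.mk_eq_zero]
  exact ⟨hf, hgf ▸ hf⟩

end Fermat.Agent.S21.Injective
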