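/-
S20 / S21 from the single remaining input (L) `genusFormula N ≤ dim S₂(Γ₀(N))` (owner: helper84).
Everything else is unconditional here: (U) ParabolicGenus, (P) PeriodBasics (helper95),
(I) Injective (helper22), Assembly.
-/
import Fermat.Agent.S21.Assembly
import Fermat.Agent.S21.Injective

set_option autoImplicit false

open Module CongruenceSubgroup ModularCurve ModularCurve.Period

namespace Fermat.Agent.S21.FromLower

open Fermat.Agent.S21

variable (N : ℕ) [NeZero N]

/-- The period pair map is injective (unconditional). -/
theorem periodHomPair_injective : Function.Injective (periodHomPair N) :=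
  Injective.periodHomPair_injective N
    (fun f => ⟨_, PeriodBasics.hasEquivariantPrimitive_primF f⟩)
    (PeriodBasics.existsPeriodMapLinear N)

/-- `S₂(Γ₀(N))` is finite-dimensional. -/
theorem finite_cuspForm : Module.Finite ℂ (CuspForm (Gamma0 N) 2) :=
  Assembly.finite_cuspForm_of_injective N (periodHomPair_injective N)

/-- **Upper bound** (unconditional): `dim S₂(Γ₀(N)) ≤ g(N)`. -/
theorem finrank_cuspForm_le :
    (finrank ℂ (CuspForm (Gamma0 N) 2) : ℚ) ≤ genusFormula N := by
  have h1 := Assembly.two_mul_finrank_le N (periodHomPair_injective N)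
  have h2 := ParabolicGenus.finrank_parabolicHoms_le N
  have h1' : (2 : ℚ) * finrank ℂ (CuspForm (Gamma0 N) 2)
      ≤ finrank ℂ (parabolicHoms ℂ (Gamma0 N) ℂ) := by exact_mod_cast h1
  linarith

/-- **S20** from the lower bound (L). -/
theorem s20_of_lower (hL : genusFormula N ≤ (finrank ℂ (CuspForm (Gamma0 N) 2) : ℚ)) :
    (finrank ℂ (CuspForm (Gamma0 N) 2) : ℚ) = genusFormula N :=
  Assembly.finrank_cuspForm_eq_genusFormula N (periodHomPair_injective N) hL

/-- **S21** from the lower bound (L). -/
theorem s21_of_lower (hL : genusFormula N ≤ (finrank ℂ (CuspForm (Gamma0 N) 2) : ℚ)) :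
    Function.Injective (periodHomPair N)
      ∧ LinearMap.range (periodHomPair N) = parabolicHoms ℂ (Gamma0 N) ℂ :=
  Assembly.eichlerShimura N (periodHomPair_injective N) hL

end Fermat.Agent.S21.FromLower
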