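import Mathlib
import Fermat.Prelude.Def_ModularCurve_PeriodHomPair
import Fermat.Prelude.Def_ModularCurve_X0
import Fermat.Agent.S21.PeriodBasics
import Fermat.Agent.S21.Injective
import Fermat.Agent.S21.ParabolicGenus

/-!
# S20 / S21: reduction to the lower bound `genusFormula N ≤ dim S₂(Γ₀(N))`

Assembles the landed blocks (P) `PeriodBasics`, (I) `Injective`, (H) `ParabolicGenus`:

* `periodHomPair_injective`: unconditional injectivity of `periodHomPair N`;
* `cuspForm_finite`: `S₂(Γ₀(N))` is finite dimensional;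
* `finrank_cuspForm_le`: `dim S₂(Γ₀(N)) ≤ genusFormula N`;
* `s20_of_lower_bound`, `s21_of_lower_bound`: the frozen statements S20 and S21 follow from the
  single hypothesis (L) `genusFormula N ≤ dim S₂(Γ₀(N))`.
-/

set_option autoImplicit false

open CongruenceSubgroup Module
open scoped MatrixGroups

namespace Fermat.Agent.S21.Reduction

open ModularCurve ModularCurve.Period

/-- (I) + (P): the period pairing is injective. -/
theorem periodHomPair_injective (N : ℕ) [NeZero N] : Function.Injective (periodHomPair N) :=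
  Injective.periodHomPair_injective N
    (fun f => ⟨PeriodBasics.primF f, PeriodBasics.hasEquivariantPrimitive_primF f⟩)
    (PeriodBasics.existsPeriodMapLinear N)

/-- `periodHomPair N` with codomain restricted to the parabolic homomorphisms. -/
noncomputable def pairToParabolic (N : ℕ) [NeZero N] :
    (CuspForm (Gamma0 N) 2 × CuspForm (Gamma0 N) 2) →ₗ[ℂ] parabolicHoms ℂ (Gamma0 N) ℂ :=
  LinearMap.codRestrict _ (periodHomPair N)
    fun x => PeriodBasics.range_periodHomPair_le N ⟨x, rfl⟩

theorem pairToParabolic_injective (N : ℕ) [NeZero N] :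
    Function.Injective (pairToParabolic N) := by
  intro x y h
  apply periodHomPair_injective N
  have := congrArg Subtype.val h
  exact this

theorem prod_finite (N : ℕ) [NeZero N] :
    Module.Finite ℂ (CuspForm (Gamma0 N) 2 × CuspForm (Gamma0 N) 2) := by
  haveI := ParabolicGenus.parabolicHoms_finite N
  exact Module.Finite.of_injective (pairToParabolic N) (pairToParabolic_injective N)

/-- `S₂(Γ₀(N))` is finite dimensional. -/
theorem cuspForm_finite (N : ℕ) [NeZero N] : Module.Finite ℂ (CuspForm (Gamma0 N) 2) := by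
  haveI := prod_finite N
  exact Module.Finite.of_injective (LinearMap.inl ℂ (CuspForm (Gamma0 N) 2) (CuspForm (Gamma0 N) 2))
    LinearMap.inl_injective

theorem two_mul_finrank_le (N : ℕ) [NeZero N] :
    2 * finrank ℂ (CuspForm (Gamma0 N) 2) ≤ finrank ℂ (parabolicHoms ℂ (Gamma0 N) ℂ) := by
  haveI := ParabolicGenus.parabolicHoms_finite N
  haveI := cuspForm_finite N
  have h := LinearMap.finrank_le_finrank_of_injective (pairToParabolic_injective N)
  rw [Module.finrank_prod] at h
  omega

/-- The upper bound `dim S₂(Γ₀(N)) ≤ g`. -/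
theorem finrank_cuspForm_le (N : ℕ) [NeZero N] :
    (finrank ℂ (CuspForm (Gamma0 N) 2) : ℚ) ≤ genusFormula N := by
  have h1 := two_mul_finrank_le N
  have h2 := ParabolicGenus.finrank_parabolicHoms_le N
  have h3 : (2 * finrank ℂ (CuspForm (Gamma0 N) 2) : ℚ)
      ≤ (finrank ℂ (parabolicHoms ℂ (Gamma0 N) ℂ) : ℚ) := by exact_mod_cast h1
  linarith

/-- **S20 from (L).** -/
theorem s20_of_lower_bound (N : ℕ) [NeZero N]
    (hL : genusFormula N ≤ (finrank ℂ (CuspForm (Gamma0 N) 2) : ℚ)) :
    (finrank ℂ (CuspForm (Gamma0 N) 2) : ℚ) = genusFormula N :=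
  le_antisymm (finrank_cuspForm_le N) hL

/-- **S21 from (L).** -/
theorem s21_of_lower_bound (N : ℕ) [NeZero N]
    (hL : genusFormula N ≤ (finrank ℂ (CuspForm (Gamma0 N) 2) : ℚ)) :
    Function.Injective (periodHomPair N)
      ∧ LinearMap.range (periodHomPair N) = parabolicHoms ℂ (Gamma0 N) ℂ := by
  refine ⟨periodHomPair_injective N, ?_⟩
  haveI := ParabolicGenus.parabolicHoms_finite N
  haveI := cuspForm_finite N
  haveI := prod_finite N
  refine Submodule.eq_of_le_of_finrank_le (PeriodBasics.range_periodHomPair_le N) ?_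
  have hr : finrank ℂ (LinearMap.range (periodHomPair N))
      = finrank ℂ (CuspForm (Gamma0 N) 2 × CuspForm (Gamma0 N) 2) :=
    LinearMap.finrank_range_of_inj (periodHomPair_injective N)
  rw [hr, Module.finrank_prod]
  have h2 := ParabolicGenus.finrank_parabolicHoms_le N
  have h3 : (finrank ℂ (parabolicHoms ℂ (Gamma0 N) ℂ) : ℚ)
      ≤ ((finrank ℂ (CuspForm (Gamma0 N) 2) + finrank ℂ (CuspForm (Gamma0 N) 2) : ℕ) : ℚ) := by
    push_cast
    linarith
  exact_mod_cast h3

end Fermat.Agent.S21.Reduction
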