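/-
S21, block (U), abstract part.

`G` a group acting transitively on a finite set `X`, `a b : G` generating `G`.
One-cocycles `z : G → (X → ℂ)` (for the action `(g • u) x = u (g⁻¹ • x)`) are determined by
`(z a, z b)`; if the values `z a`, `z b`, `z (a * b)` have vanishing orbit sums (along the orbits of
`a`, `b`, `a * b`), the pair `(z a, z b)` lies in the kernel of an explicit linear map `mu a b`
whose rank is at least `r_a + r_b + r_{ab} - 1` (`r_c` = number of orbits of `c`).
-/
import Mathlib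

set_option autoImplicit false

namespace Fermat.Agent.S21.CocycleBound

open MulAction Module

section Cocycle

variable {G X : Type*} [Group G] [MulAction G X]

/-- One-cocycles of `G` with values in the functions on `X`. -/
def IsCoc (z : G → X → ℂ) : Prop := ∀ g h x, z (g * h) x = z g x + z h (g⁻¹ • x)

namespace IsCoc

variable {z : G → X → ℂ}

theorem one (hz : IsCoc z) (x : X) : z 1 x = 0 := by
  have h := hz 1 1 x
  simp only [mul_one, inv_one, one_smul] at h
  linear_combination -h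

theorem inv (hz : IsCoc z) (g : G) (x : X) : z g⁻¹ x = - z g (g • x) := by
  have h := hz g⁻¹ g x
  simp only [inv_mul_cancel, inv_inv, hz.one] at h
  linear_combination -h

theorem pow (hz : IsCoc z) (c : G) (m : ℕ) (x : X) :
    z (c ^ m) x = ∑ i ∈ Finset.range m, z c ((c ^ i)⁻¹ • x) := by
  induction m with
  | zero => simp [hz.one]
  | succ m ih => rw [pow_succ, hz, ih, Finset.sum_range_succ]

theorem add {z w : G → X → ℂ} (hz : IsCoc z) (hw : IsCoc w) :
    IsCoc (fun g x => z g x + w g x) := by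
  intro g h x
  simp only [hz g h x, hw g h x]
  ring

/-- The set where a cocycle vanishes is a subgroup. -/
def zeroSubgroup (hz : IsCoc z) : Subgroup G where
  carrier := {g | ∀ x, z g x = 0}
  one_mem' := hz.one
  mul_mem' := by
    intro g h hg hh x
    change ∀ x, z g x = 0 at hg
    change ∀ x, z h x = 0 at hh
    rw [hz, hg, hh, add_zero]
  inv_mem' := by
    intro g hg x
    change ∀ x, z g x = 0 at hg
    rw [hz.inv, hg, neg_zero]

theorem eq_zero_of_closure (hz : IsCoc z) (s : Set G) (hs : Subgroup.closure s = ⊤)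
    (h : ∀ g ∈ s, ∀ x, z g x = 0) (g : G) (x : X) : z g x = 0 := by
  have hle : Subgroup.closure s ≤ hz.zeroSubgroup := (Subgroup.closure_le _).mpr h
  rw [hs] at hle
  exact hle (Subgroup.mem_top g) x

end IsCoc

/-- Coboundaries are cocycles. -/
theorem isCoc_cobdry (f : X → ℂ) : IsCoc (fun (g : G) x => f (g⁻¹ • x) - f x) := by
  intro g h x
  simp only [mul_inv_rev, mul_smul]
  ring

end Cocycle

section OrbSum

variable {G X : Type*} [Group G] [MulAction G X]

/-- The orbit space of the cyclic group generated by `c`. -/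
abbrev Orb (X : Type*) [MulAction G X] (c : G) : Type _ :=
  orbitRel.Quotient (Subgroup.zpowers c) X

/-- The class of a point in the orbit space. -/
def Orb.mk (c : G) (x : X) : Orb X c := Quotient.mk'' x

theorem Orb.mk_surjective (c : G) : Function.Surjective (Orb.mk (X := X) c) :=
  Quotient.mk''_surjective

theorem Orb.mk_zpowers_smul (c : G) {g : G} (hg : g ∈ Subgroup.zpowers c) (x : X) :
    Orb.mk c (g • x) = Orb.mk c x := by
  apply Quotient.sound'
  show g • x ∈ MulAction.orbit (Subgroup.zpowers c) x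
  exact ⟨⟨g, hg⟩, rfl⟩

theorem Orb.mk_smul (c : G) (x : X) : Orb.mk c (c • x) = Orb.mk c x :=
  Orb.mk_zpowers_smul c (Subgroup.mem_zpowers c) x

variable [Fintype X]

open Classical in
/-- Orbit sums, as a linear map. -/
noncomputable def orbSum (c : G) : (X → ℂ) →ₗ[ℂ] (Orb X c → ℂ) where
  toFun u o := ∑ x : X, if Orb.mk c x = o then u x else 0
  map_add' u v := by
    funext o
    simp only [Pi.add_apply, ← Finset.sum_add_distrib]
    refine Finset.sum_congr rfl fun x _ => ?_
    split_ifs <;> simp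
  map_smul' r u := by
    funext o
    simp only [Pi.smul_apply, smul_eq_mul, RingHom.id_apply, Finset.mul_sum]
    refine Finset.sum_congr rfl fun x _ => ?_
    split_ifs <;> simp

open Classical in
theorem orbSum_apply (c : G) (u : X → ℂ) (o : Orb X c) :
    orbSum c u o = ∑ x : X, if Orb.mk c x = o then u x else 0 := rfl

theorem orbSum_comp_smul (c : G) {g : G} (hg : g ∈ Subgroup.zpowers c) (u : X → ℂ) :
    orbSum c (fun x => u (g⁻¹ • x)) = orbSum c u := by
  classical
  funext o
  rw [orbSum_apply, orbSum_apply]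
  refine Fintype.sum_equiv (MulAction.toPerm g⁻¹) _ _ fun x => ?_
  have h : Orb.mk c (g⁻¹ • x) = Orb.mk c x :=
    Orb.mk_zpowers_smul c (Subgroup.inv_mem _ hg) x
  simp only [MulAction.toPerm_apply, h]

theorem orbSum_eq_zero_of_sum (c : G) (u : X → ℂ) (m : ℕ) (hm : 0 < m)
    (h : ∀ x, ∑ i ∈ Finset.range m, u ((c ^ i)⁻¹ • x) = 0) : orbSum c u = 0 := by
  have h1 : orbSum c (∑ i ∈ Finset.range m, fun x => u ((c ^ i)⁻¹ • x)) = 0 := by
    have : (∑ i ∈ Finset.range m, fun x => u ((c ^ i)⁻¹ • x)) = 0 := by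
      funext x
      rw [Finset.sum_apply]
      exact h x
    rw [this, map_zero]
  rw [map_sum] at h1
  have h2 : ∀ i ∈ Finset.range m, orbSum c (fun x => u ((c ^ i)⁻¹ • x)) = orbSum c u :=
    fun i _ => orbSum_comp_smul c (Subgroup.pow_mem _ (Subgroup.mem_zpowers c) i) u
  rw [Finset.sum_congr rfl h2, Finset.sum_const, Finset.card_range] at h1
  have hm' : (m : ℂ) ≠ 0 := by exact_mod_cast hm.ne'
  rw [← Nat.cast_smul_eq_nsmul ℂ] at h1
  exact (smul_eq_zero.mp h1).resolve_left hm'

theorem orbSum_single [DecidableEq X] (c : G) (y : X) :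
    orbSum c (Pi.single y 1) = (open Classical in Pi.single (Orb.mk c y) 1) := by
  classical
  funext o
  rw [orbSum_apply, Finset.sum_eq_single y]
  · by_cases h : Orb.mk c y = o
    · subst h; simp
    · simp [h, Ne.symm h]
  · intro x _ hx
    simp [hx]
  · intro h; exact absurd (Finset.mem_univ y) h

end OrbSum

section Rank

variable {G X : Type*} [Group G] [MulAction G X]

/-- `shift a v = a • v`, i.e. `x ↦ v (a⁻¹ • x)`. -/
def shift (a : G) : (X → ℂ) →ₗ[ℂ] (X → ℂ) := LinearMap.funLeft ℂ ℂ (fun x => a⁻¹ • x)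

@[simp] theorem shift_apply (a : G) (v : X → ℂ) (x : X) : shift a v x = v (a⁻¹ • x) := rfl

theorem shift_single [DecidableEq X] (a : G) (y : X) :
    shift a (Pi.single y (1 : ℂ)) = Pi.single (a • y) 1 := by
  funext x
  simp only [shift_apply, Pi.single_apply]
  by_cases h : x = a • y
  · subst h; simp
  · have : a⁻¹ • x ≠ y := fun h' => h (by rw [← h', smul_inv_smul])
    simp [h, this]

variable [Fintype X]

/-- The linear map cutting out the orbit sum conditions on `(z a, z b)`. -/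
noncomputable def mu (a b : G) :
    ((X → ℂ) × (X → ℂ)) →ₗ[ℂ] ((Orb X a → ℂ) × (Orb X b → ℂ) × (Orb X (a * b) → ℂ)) :=
  ((orbSum a).comp (LinearMap.fst ℂ _ _)).prod
    (((orbSum b).comp (LinearMap.snd ℂ _ _)).prod
      ((orbSum (a * b)).comp (LinearMap.fst ℂ _ _ + (shift a).comp (LinearMap.snd ℂ _ _))))

theorem mu_apply (a b : G) (u v : X → ℂ) :
    mu a b (u, v) = (orbSum a u, orbSum b v, orbSum (a * b) (u + shift a v)) := rfl

theorem mem_ker_mu (a b : G) (u v : X → ℂ) :
    (u, v) ∈ LinearMap.ker (mu a b) ↔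
      orbSum a u = 0 ∧ orbSum b v = 0 ∧ orbSum (a * b) (u + shift a v) = 0 := by
  rw [LinearMap.mem_ker, mu_apply, Prod.mk_eq_zero, Prod.mk_eq_zero]

omit [Fintype X] in
/-- A function on `X` invariant under generators of `G` is constant. -/
theorem const_of_invariant [IsPretransitive G X] (s : Set G) (hs : Subgroup.closure s = ⊤) (h : X → ℂ)
    (hinv : ∀ g ∈ s, ∀ x, h (g • x) = h x) (x y : X) : h x = h y := by
  let H : Subgroup G :=
    { carrier := {g | ∀ x, h (g • x) = h x}
      one_mem' := fun x => by rw [one_smul]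
      mul_mem' := by
        intro g k hg hk x
        change ∀ x, h (g • x) = h x at hg
        change ∀ x, h (k • x) = h x at hk
        rw [mul_smul, hg, hk]
      inv_mem' := by
        intro g hg x
        change ∀ x, h (g • x) = h x at hg
        rw [← hg (g⁻¹ • x), smul_inv_smul] }
  have hle : Subgroup.closure s ≤ H := (Subgroup.closure_le _).mpr hinv
  rw [hs] at hle
  obtain ⟨g, rfl⟩ := MulAction.exists_smul_eq G y x
  exact hle (Subgroup.mem_top g) y

open Classical in
/-- The annihilator of the range of `mu a b` is at most one-dimensional. -/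
theorem finrank_dualAnnihilator_range_mu_le [IsPretransitive G X] (x0 : X) (a b : G)
    (hgen : Subgroup.closure {a, b} = ⊤) :
    finrank ℂ (LinearMap.range (mu (X := X) a b)).dualAnnihilator ≤ 1 := by
  -- evaluation at one basis vector is injective on the annihilator
  let ev : (LinearMap.range (mu (X := X) a b)).dualAnnihilator →ₗ[ℂ] ℂ :=
    (Module.Dual.eval ℂ ((Orb X a → ℂ) × (Orb X b → ℂ) × (Orb X (a * b) → ℂ))
      (0, 0, Pi.single (Orb.mk (a * b) x0) 1)).comp (Submodule.subtype _)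
  have hinj : Function.Injective ev := by
    rw [← LinearMap.ker_eq_bot, LinearMap.ker_eq_bot']
    rintro ⟨l, hl⟩ h0
    change l (0, 0, Pi.single (Orb.mk (a * b) x0) 1) = 0 at h0
    rw [Submodule.mem_dualAnnihilator] at hl
    -- the three families of values of `l` on basis vectors
    set α : X → ℂ := fun y => l (Pi.single (Orb.mk a y) 1, 0, 0) with hα
    set β : X → ℂ := fun y => l (0, Pi.single (Orb.mk b y) 1, 0) with hβ
    set γ : X → ℂ := fun y => l (0, 0, Pi.single (Orb.mk (a * b) y) 1) with hγ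
    have e1 : ∀ y, α y + γ y = 0 := by
      intro y
      have h := hl _ ⟨(Pi.single y 1, 0), rfl⟩
      simp only [mu_apply, map_zero, add_zero, orbSum_single] at h
      rw [← h, hα, hγ]
      simp only
      rw [← map_add]
      simp
    have e2 : ∀ y, β y + γ (a • y) = 0 := by
      intro y
      have h := hl _ ⟨(0, Pi.single y 1), rfl⟩
      simp only [mu_apply, map_zero, zero_add, shift_single, orbSum_single] at h
      rw [← h, hβ, hγ]
      simp only
      rw [← map_add]
      simp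
    have hα_inv : ∀ y, α (a • y) = α y := fun y => by
      simp only [hα, Orb.mk_smul]
    have hβ_inv : ∀ y, β (b • y) = β y := fun y => by
      simp only [hβ, Orb.mk_smul]
    have hγ_inv : ∀ y, γ ((a * b) • y) = γ y := fun y => by
      simp only [hγ, Orb.mk_smul]
    have ha : ∀ y, γ (a • y) = γ y := fun y => by
      have h1 := e1 (a • y)
      have h2 := e1 y
      rw [hα_inv] at h1
      linear_combination h1 - h2
    have hb : ∀ y, γ (b • y) = γ y := fun y => by
      have h1 := hγ_inv y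
      rw [mul_smul, ha] at h1
      exact h1
    have hconst : ∀ y, γ y = 0 := fun y => by
      rw [const_of_invariant {a, b} hgen γ ?_ y x0]
      · exact h0
      · intro g hg x
        rcases hg with rfl | rfl
        · exact ha x
        · exact hb x
    have hα0 : ∀ y, α y = 0 := fun y => by
      have := e1 y; rw [hconst, add_zero] at this; exact this
    have hβ0 : ∀ y, β y = 0 := fun y => by
      have := e2 y; rw [hconst, add_zero] at this; exact this
    -- `l` vanishes on a spanning set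
    apply Subtype.ext
    show l = 0
    apply LinearMap.ext
    rintro ⟨p, q, r⟩
    have hp : l (p, 0, 0) = 0 := by
      have : (l.comp (LinearMap.inl ℂ _ _)) = 0 := by
        apply LinearMap.pi_ext
        intro o c
        obtain ⟨y, rfl⟩ := Orb.mk_surjective a o
        have h := hα0 y
        simp only [hα] at h
        have hc : (Pi.single (Orb.mk a y) c : Orb X a → ℂ) = c • Pi.single (Orb.mk a y) 1 := by
          rw [← Pi.single_smul, smul_eq_mul, mul_one]
        simp only [LinearMap.comp_apply, LinearMap.inl_apply, LinearMap.zero_apply]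
        rw [hc, ← Prod.smul_mk_zero, map_smul]
        have h' : l (Pi.single (Orb.mk a y) 1, 0) = 0 := h
        rw [h', smul_zero]
      exact LinearMap.congr_fun this p
    have hq : l (0, q, 0) = 0 := by
      have : (l.comp ((LinearMap.inr ℂ _ _).comp (LinearMap.inl ℂ _ _))) = 0 := by
        apply LinearMap.pi_ext
        intro o c
        obtain ⟨y, rfl⟩ := Orb.mk_surjective b o
        have h := hβ0 y
        simp only [hβ] at h
        have hc : (Pi.single (Orb.mk b y) c : Orb X b → ℂ) = c • Pi.single (Orb.mk b y) 1 := by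
          rw [← Pi.single_smul, smul_eq_mul, mul_one]
        simp only [LinearMap.comp_apply, LinearMap.inl_apply, LinearMap.inr_apply,
          LinearMap.zero_apply]
        rw [hc, ← Prod.smul_mk_zero, ← Prod.smul_zero_mk, map_smul]
        have h' : l (0, Pi.single (Orb.mk b y) 1, 0) = 0 := h
        rw [h', smul_zero]
      exact LinearMap.congr_fun this q
    have hr : l (0, 0, r) = 0 := by
      have : (l.comp ((LinearMap.inr ℂ _ _).comp (LinearMap.inr ℂ _ _))) = 0 := by
        apply LinearMap.pi_ext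
        intro o c
        obtain ⟨y, rfl⟩ := Orb.mk_surjective (a * b) o
        have h := hconst y
        simp only [hγ] at h
        have hc : (Pi.single (Orb.mk (a * b) y) c : Orb X (a * b) → ℂ)
            = c • Pi.single (Orb.mk (a * b) y) 1 := by
          rw [← Pi.single_smul, smul_eq_mul, mul_one]
        simp only [LinearMap.comp_apply, LinearMap.inr_apply, LinearMap.zero_apply]
        rw [hc, ← Prod.smul_zero_mk, ← Prod.smul_zero_mk, map_smul]
        have h' : l (0, 0, Pi.single (Orb.mk (a * b) y) 1) = 0 := h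
        rw [h', smul_zero]
      exact LinearMap.congr_fun this r
    have hsplit : ((p, q, r) : (Orb X a → ℂ) × (Orb X b → ℂ) × (Orb X (a * b) → ℂ))
        = (p, 0, 0) + (0, q, 0) + (0, 0, r) := by
      simp
    rw [hsplit, map_add, map_add, hp, hq, hr]
    simp
  have := LinearMap.finrank_le_finrank_of_injective hinj
  rwa [finrank_self] at this

/-- The kernel of `mu a b` is small. -/
theorem finrank_ker_mu_add_le [IsPretransitive G X] (x0 : X) (a b : G)
    (hgen : Subgroup.closure {a, b} = ⊤) :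
    finrank ℂ (LinearMap.ker (mu (X := X) a b))
      + (Nat.card (Orb X a) + Nat.card (Orb X b) + Nat.card (Orb X (a * b)))
      ≤ 2 * Fintype.card X + 1 := by
  classical
  let _ : Fintype (Orb X a) := Fintype.ofFinite _
  let _ : Fintype (Orb X b) := Fintype.ofFinite _
  let _ : Fintype (Orb X (a * b)) := Fintype.ofFinite _
  have h1 := LinearMap.finrank_range_add_finrank_ker (mu (X := X) a b)
  have h2 := Subspace.finrank_add_finrank_dualAnnihilator_eq (LinearMap.range (mu (X := X) a b))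
  have h3 := finrank_dualAnnihilator_range_mu_le x0 a b hgen
  have hdom : finrank ℂ ((X → ℂ) × (X → ℂ)) = 2 * Fintype.card X := by
    rw [Module.finrank_prod, Module.finrank_fintype_fun_eq_card]; ring
  have hcod : finrank ℂ ((Orb X a → ℂ) × (Orb X b → ℂ) × (Orb X (a * b) → ℂ))
      = Nat.card (Orb X a) + Nat.card (Orb X b) + Nat.card (Orb X (a * b)) := by
    rw [Module.finrank_prod, Module.finrank_prod, Module.finrank_fintype_fun_eq_card,
      Module.finrank_fintype_fun_eq_card, Module.finrank_fintype_fun_eq_card,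
      Nat.card_eq_fintype_card, Nat.card_eq_fintype_card, Nat.card_eq_fintype_card]
    ring
  rw [hdom] at h1
  rw [hcod] at h2
  omega

end Rank

section Shapiro

variable {G : Type*} [Group G] (Γ : Subgroup G)

open Classical in
/-- Extension by zero of a homomorphism `Γ → ℂ` to a function on `G`. -/
noncomputable def ext0 (φ : Additive Γ →+ ℂ) (g : G) : ℂ :=
  if h : g ∈ Γ then φ (Additive.ofMul ⟨g, h⟩) else 0

theorem ext0_of_mem (φ : Additive Γ →+ ℂ) {g : G} (h : g ∈ Γ) :
    ext0 Γ φ g = φ (Additive.ofMul ⟨g, h⟩) := dif_pos h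

theorem ext0_mul (φ : Additive Γ →+ ℂ) {g h : G} (hg : g ∈ Γ) (hh : h ∈ Γ) :
    ext0 Γ φ (g * h) = ext0 Γ φ g + ext0 Γ φ h := by
  rw [ext0_of_mem Γ φ hg, ext0_of_mem Γ φ hh, ext0_of_mem Γ φ (Γ.mul_mem hg hh), ← map_add]
  rfl

theorem ext0_add (φ ψ : Additive Γ →+ ℂ) (g : G) :
    ext0 Γ (φ + ψ) g = ext0 Γ φ g + ext0 Γ ψ g := by
  unfold ext0
  split_ifs <;> simp

theorem ext0_smul (c : ℂ) (φ : Additive Γ →+ ℂ) (g : G) :
    ext0 Γ (c • φ) g = c * ext0 Γ φ g := by
  unfold ext0
  split_ifs <;> simp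

theorem ext0_zero (g : G) : ext0 Γ 0 g = 0 := by
  unfold ext0
  split_ifs <;> simp

/-- A section of `G → G ⧸ Γ`. -/
noncomputable def sec (x : G ⧸ Γ) : G := Quotient.out x

theorem mk_sec (x : G ⧸ Γ) : ((sec Γ x : G) : G ⧸ Γ) = x := QuotientGroup.out_eq' x

theorem sec_mem (g : G) (x : G ⧸ Γ) : (sec Γ x)⁻¹ * g * sec Γ (g⁻¹ • x) ∈ Γ := by
  rw [mul_assoc, ← QuotientGroup.eq, mk_sec, ← smul_eq_mul, ← MulAction.Quotient.smul_coe,
    mk_sec, smul_inv_smul]

/-- The (Shapiro) cocycle attached to a homomorphism `Γ → ℂ`. -/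
noncomputable def coc (φ : Additive Γ →+ ℂ) (g : G) (x : G ⧸ Γ) : ℂ :=
  ext0 Γ φ ((sec Γ x)⁻¹ * g * sec Γ (g⁻¹ • x))

theorem coc_isCoc (φ : Additive Γ →+ ℂ) : IsCoc (coc Γ φ) := by
  intro g h x
  unfold coc
  rw [← ext0_mul Γ φ (sec_mem Γ g x) (sec_mem Γ h (g⁻¹ • x))]
  congr 1
  rw [mul_inv_rev, mul_smul]
  group

theorem coc_add (φ ψ : Additive Γ →+ ℂ) (g : G) (x : G ⧸ Γ) :
    coc Γ (φ + ψ) g x = coc Γ φ g x + coc Γ ψ g x := ext0_add Γ φ ψ _

theorem coc_smul (c : ℂ) (φ : Additive Γ →+ ℂ) (g : G) (x : G ⧸ Γ) :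
    coc Γ (c • φ) g x = c * coc Γ φ g x := ext0_smul Γ c φ _

theorem coc_zero (g : G) (x : G ⧸ Γ) : coc Γ 0 g x = 0 := ext0_zero Γ _

/-- The cocycle attached to a pair (homomorphism, function). -/
noncomputable def zc (φ : Additive Γ →+ ℂ) (f : G ⧸ Γ → ℂ) (g : G) (x : G ⧸ Γ) : ℂ :=
  coc Γ φ g x + (f (g⁻¹ • x) - f x)

theorem zc_isCoc (φ : Additive Γ →+ ℂ) (f : G ⧸ Γ → ℂ) : IsCoc (zc Γ φ f) :=
  (coc_isCoc Γ φ).add (isCoc_cobdry f)

/-- If the cocycle of `(φ, f)` vanishes on generators, then `φ = 0` and `f` is constant. -/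
theorem eq_zero_of_zc (φ : Additive Γ →+ ℂ) (f : G ⧸ Γ → ℂ) (s : Set G)
    (hs : Subgroup.closure s = ⊤) (h : ∀ g ∈ s, ∀ x, zc Γ φ f g x = 0) :
    φ = 0 ∧ ∀ x y, f x = f y := by
  have hz : ∀ g x, zc Γ φ f g x = 0 := (zc_isCoc Γ φ f).eq_zero_of_closure s hs h
  have hφ : φ = 0 := by
    apply AddMonoidHom.ext
    intro γ'
    obtain ⟨γ, rfl⟩ : ∃ γ : Γ, Additive.ofMul γ = γ' := ⟨Additive.toMul γ', rfl⟩
    set x0 : G ⧸ Γ := ((1 : G) : G ⧸ Γ) with hx0
    set σ := sec Γ x0 with hσ
    have hσmem : σ ∈ Γ := by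
      have h1 : ((σ : G) : G ⧸ Γ) = ((1 : G) : G ⧸ Γ) := mk_sec Γ x0
      rw [QuotientGroup.eq] at h1
      simpa using Γ.inv_mem h1
    have hgmem : σ * (γ : G) * σ⁻¹ ∈ Γ :=
      Γ.mul_mem (Γ.mul_mem hσmem γ.2) (Γ.inv_mem hσmem)
    have hfix : (σ * (γ : G) * σ⁻¹)⁻¹ • x0 = x0 := by
      rw [hx0, MulAction.Quotient.smul_coe, smul_eq_mul, mul_one, QuotientGroup.eq, inv_inv,
        mul_one]
      exact hgmem
    have h0 := hz (σ * (γ : G) * σ⁻¹) x0
    unfold zc coc at h0
    rw [hfix, sub_self, add_zero, ← hσ] at h0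
    have he : σ⁻¹ * (σ * (γ : G) * σ⁻¹) * σ = (γ : G) := by group
    rw [he, ext0_of_mem Γ φ γ.2] at h0
    simpa using h0
  refine ⟨hφ, ?_⟩
  subst hφ
  have hinv : ∀ (g : G) (x : G ⧸ Γ), f (g • x) = f x := by
    intro g x
    have h0 := hz g⁻¹ x
    unfold zc at h0
    rw [coc_zero, zero_add, inv_inv] at h0
    linear_combination h0
  intro x y
  obtain ⟨g, rfl⟩ := MulAction.exists_smul_eq G y x
  exact hinv g y

variable [Finite (G ⧸ Γ)]

/-- Some positive power of `c` acts trivially on the (finite) coset space. -/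
theorem exists_pow_smul_eq (c : G) : ∃ m : ℕ, 0 < m ∧ ∀ x : G ⧸ Γ, (c ^ m)⁻¹ • x = x := by
  refine ⟨Nat.card (Equiv.Perm (G ⧸ Γ)), Nat.card_pos, fun x => ?_⟩
  have h : (MulAction.toPermHom G (G ⧸ Γ) c) ^ Nat.card (Equiv.Perm (G ⧸ Γ)) = 1 :=
    pow_card_eq_one'
  rw [← map_pow] at h
  have h2 : (c ^ Nat.card (Equiv.Perm (G ⧸ Γ))) • x = x := by
    have := congrArg (fun e : Equiv.Perm (G ⧸ Γ) => e x) h
    simpa using this
  rw [inv_smul_eq_iff, h2]

end Shapiro

section Main

variable {G : Type*} [Group G] (Γ : Subgroup G)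

/-- The linear map `(φ, f) ↦ (z a, z b)` for the cocycle `z` of `(φ, f)`. -/
noncomputable def theta (E : Submodule ℂ (Additive Γ →+ ℂ)) (a b : G) :
    (E × (G ⧸ Γ → ℂ)) →ₗ[ℂ] ((G ⧸ Γ → ℂ) × (G ⧸ Γ → ℂ)) where
  toFun p := (zc Γ (p.1 : Additive Γ →+ ℂ) p.2 a, zc Γ (p.1 : Additive Γ →+ ℂ) p.2 b)
  map_add' p q := by
    ext x
    · simp only [zc, Prod.fst_add, Prod.snd_add, Submodule.coe_add, coc_add, Pi.add_apply]; ring
    · simp only [zc, Prod.fst_add, Prod.snd_add, Submodule.coe_add, coc_add, Pi.add_apply]; ring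
  map_smul' c p := by
    ext x
    · simp only [zc, Prod.smul_fst, Prod.smul_snd, Submodule.coe_smul, coc_smul, Pi.smul_apply,
        smul_eq_mul, RingHom.id_apply]; ring
    · simp only [zc, Prod.smul_fst, Prod.smul_snd, Submodule.coe_smul, coc_smul, Pi.smul_apply,
        smul_eq_mul, RingHom.id_apply]; ring

theorem theta_apply (E : Submodule ℂ (Additive Γ →+ ℂ)) (a b : G) (p : E × (G ⧸ Γ → ℂ)) :
    theta Γ E a b p
      = (zc Γ (p.1 : Additive Γ →+ ℂ) p.2 a, zc Γ (p.1 : Additive Γ →+ ℂ) p.2 b) := rfl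

theorem eq_zero_of_theta (E : Submodule ℂ (Additive Γ →+ ℂ)) (a b : G)
    (hgen : Subgroup.closure {a, b} = ⊤) (p : E × (G ⧸ Γ → ℂ)) (hp : theta Γ E a b p = 0) :
    p.1 = 0 ∧ ∀ x y, p.2 x = p.2 y := by
  rw [theta_apply, Prod.mk_eq_zero] at hp
  obtain ⟨h1, h2⟩ := eq_zero_of_zc Γ (p.1 : Additive Γ →+ ℂ) p.2 {a, b} hgen (by
    intro g hg x
    rcases hg with rfl | rfl
    · exact congrFun hp.1 x
    · exact congrFun hp.2 x)
  exact ⟨Subtype.ext h1, h2⟩

/-- The values `(z a, z b)` satisfy the orbit sum conditions. -/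
theorem theta_mem_ker_mu [Fintype (G ⧸ Γ)] (E : Submodule ℂ (Additive Γ →+ ℂ)) (a b : G)
    (hE : ∀ φ ∈ E, ∀ c ∈ ({a, b, a * b} : Set G), ∀ (g : G) (m : ℕ)
      (h : g⁻¹ * c ^ m * g ∈ Γ), φ (Additive.ofMul ⟨g⁻¹ * c ^ m * g, h⟩) = 0)
    (p : E × (G ⧸ Γ → ℂ)) :
    theta Γ E a b p ∈ LinearMap.ker (mu (X := G ⧸ Γ) a b) := by
  have hz := zc_isCoc Γ (p.1 : Additive Γ →+ ℂ) p.2
  have key : ∀ c ∈ ({a, b, a * b} : Set G),
      orbSum c (zc Γ (p.1 : Additive Γ →+ ℂ) p.2 c) = 0 := by
    intro c hc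
    obtain ⟨m, hm, hfix⟩ := exists_pow_smul_eq Γ c
    refine orbSum_eq_zero_of_sum c _ m hm fun x => ?_
    rw [← hz.pow]
    unfold zc coc
    rw [hfix x, sub_self, add_zero, ext0_of_mem Γ _ (by
      have := sec_mem Γ (c ^ m) x
      rwa [hfix x] at this)]
    exact hE _ p.1.2 c hc (sec Γ x) m _
  rw [theta_apply, mem_ker_mu]
  refine ⟨key a (by simp), key b (by simp), ?_⟩
  have : zc Γ (p.1 : Additive Γ →+ ℂ) p.2 a + shift a (zc Γ (p.1 : Additive Γ →+ ℂ) p.2 b)
      = zc Γ (p.1 : Additive Γ →+ ℂ) p.2 (a * b) := by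
    funext x
    exact (hz a b x).symm
  rw [this]
  exact key (a * b) (by simp)

/-- **Main bound.** For a subgroup `Γ` of finite index in a group `G` generated by `a` and `b`,
a space `E` of homomorphisms `Γ → ℂ` killing all elements of `Γ` conjugate to powers of
`a`, `b`, `a * b` is finite-dimensional, and
`dim E + r_a + r_b + r_{ab} ≤ [G : Γ] + 2`. -/
theorem finrank_add_orbits_le [Finite (G ⧸ Γ)] (E : Submodule ℂ (Additive Γ →+ ℂ)) (a b : G)
    (hgen : Subgroup.closure {a, b} = ⊤)
    (hE : ∀ φ ∈ E, ∀ c ∈ ({a, b, a * b} : Set G), ∀ (g : G) (m : ℕ)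
      (h : g⁻¹ * c ^ m * g ∈ Γ), φ (Additive.ofMul ⟨g⁻¹ * c ^ m * g, h⟩) = 0) :
    Module.Finite ℂ E ∧
      finrank ℂ E + (Nat.card (Orb (G ⧸ Γ) a) + Nat.card (Orb (G ⧸ Γ) b)
        + Nat.card (Orb (G ⧸ Γ) (a * b))) ≤ Nat.card (G ⧸ Γ) + 2 := by
  classical
  let _ : Fintype (G ⧸ Γ) := Fintype.ofFinite _
  set x0 : G ⧸ Γ := ((1 : G) : G ⧸ Γ) with hx0
  -- finiteness
  have hfin : Module.Finite ℂ E := by
    refine Module.Finite.of_injective ((theta Γ E a b).comp (LinearMap.inl ℂ E (G ⧸ Γ → ℂ))) ?_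
    rw [← LinearMap.ker_eq_bot, LinearMap.ker_eq_bot']
    intro φ h
    exact (eq_zero_of_theta Γ E a b hgen (φ, 0) h).1
  refine ⟨hfin, ?_⟩
  -- the kernel of `theta` is at most one-dimensional
  have hker : finrank ℂ (LinearMap.ker (theta Γ E a b)) ≤ 1 := by
    let ev : LinearMap.ker (theta Γ E a b) →ₗ[ℂ] ℂ :=
      ((LinearMap.proj x0).comp (LinearMap.snd ℂ E (G ⧸ Γ → ℂ))).comp (Submodule.subtype _)
    have hinj : Function.Injective ev := by
      rw [injective_iff_map_eq_zero]
      rintro ⟨p, hp⟩ h0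
      change p.2 x0 = 0 at h0
      rw [LinearMap.mem_ker] at hp
      obtain ⟨h1, h2⟩ := eq_zero_of_theta Γ E a b hgen p hp
      apply Subtype.ext
      show p = 0
      refine Prod.ext h1 ?_
      funext x
      rw [h2 x x0, h0]
      rfl
    have := LinearMap.finrank_le_finrank_of_injective hinj
    rwa [finrank_self] at this
  -- the range of `theta` lies in the kernel of `mu`
  have hrange : finrank ℂ (LinearMap.range (theta Γ E a b))
      ≤ finrank ℂ (LinearMap.ker (mu (X := G ⧸ Γ) a b)) := by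
    apply Submodule.finrank_mono
    rintro _ ⟨p, rfl⟩
    exact theta_mem_ker_mu Γ E a b hE p
  have hmu := finrank_ker_mu_add_le (X := G ⧸ Γ) x0 a b hgen
  have hrn := LinearMap.finrank_range_add_finrank_ker (theta Γ E a b)
  have hdom : finrank ℂ (E × (G ⧸ Γ → ℂ)) = finrank ℂ E + Nat.card (G ⧸ Γ) := by
    rw [Module.finrank_prod, Module.finrank_fintype_fun_eq_card, Nat.card_eq_fintype_card]
  rw [hdom] at hrn
  rw [← Nat.card_eq_fintype_card] at hmu
  omega

end Main

end Fermat.Agent.S21.CocycleBound
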